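/-
P-S44 (block C2, route OMEGA, leaf DESC, piece SAT) -- helper23.

`A`-saturation of an integral basis.  `A` a valuation subring of `ℚ̄` with a surjection
`π : A → k` onto a field.  Let `f' j` be cusp forms of level `M'` spanning `S₂(Γ₀(M'))`, with
integral `q`-expansions `qf' j` whose reductions are `k`-linearly independent (output of
`Forms.exists_saturated_basis M'`).  If a cusp form `s'` of level `M'` has an `A`-integral
`q`-expansion `qs'`, then its reduction is a `k`-linear combination of the reductions of the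
`qf' j` (`exists_coeffs_of_integral`).

Proof without minors: `s' = ∑ β_j f'_j` over `ℂ`; a `ℚ̄`-linear retraction of `ι : ℚ̄ → ℂ` applied to
the coefficient identities gives `qs' = ∑ b_j qf'_j` with `b_j ∈ ℚ̄`; if some `b_j ∉ A`, dividing by
the `b_j` of largest valuation gives a combination with coefficients in `A`, one of them `1`, whose
`q`-expansion lies in `𝔪_A[[q]]`: its reduction contradicts the independence (`exists_coeffs_core`).
-/
import Mathlib
import Fermat.Agent.S24.Setup
import Fermat.Agent.S23.Glue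

set_option autoImplicit false
set_option linter.unusedSectionVars false
set_option linter.style.haveILetI false

noncomputable section

namespace Fermat.Agent.S40x.C2.Descent.Saturate

open UpperHalfPlane CongruenceSubgroup Fermat.Agent.S24.Setup

variable (A : ValuationSubring Kbar) {k : Type*} [Field k] (π : A →+* k)
  (hπ : Function.Surjective π)

include hπ in
/-- a surjection of a valuation ring onto a field kills the non-units. -/
theorem map_eq_zero_of_not_isUnit {x : A} (hx : ¬ IsUnit x) : π x = 0 := by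
  have hmax : (RingHom.ker π).IsMaximal := RingHom.ker_isMaximal_of_surjective π hπ
  have h1 : RingHom.ker π = IsLocalRing.maximalIdeal A := IsLocalRing.eq_maximalIdeal hmax
  have h2 : x ∈ IsLocalRing.maximalIdeal A := (IsLocalRing.mem_maximalIdeal x).mpr hx
  rw [← h1] at h2
  exact (RingHom.mem_ker).mp h2

include hπ in
/-- **Algebraic core.** -/
theorem exists_coeffs_core {r : ℕ} (qf : Fin r → PowerSeries ℤ)
    (hsat : LinearIndependent k (fun j => (qf j).map (Int.castRingHom k)))
    (qs : PowerSeries A) (b : Fin r → Kbar)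
    (hb : ∀ n : ℕ, ((PowerSeries.coeff n qs : A) : Kbar) =
      ∑ j, b j * ((PowerSeries.coeff n (qf j) : ℤ) : Kbar)) :
    ∃ c : Fin r → k, qs.map π = ∑ j, c j • (qf j).map (Int.castRingHom k) := by
  classical
  -- all `b j` lie in `A`
  have hbA : ∀ j, b j ∈ A := by
    by_contra hcon
    push Not at hcon
    obtain ⟨j1, hj1⟩ := hcon
    obtain ⟨j0, -, hmax⟩ := Finset.exists_max_image Finset.univ (fun j => A.valuation (b j))
      ⟨j1, Finset.mem_univ j1⟩
    have hv1 : 1 < A.valuation (b j0) := by
      have h1 : ¬ A.valuation (b j1) ≤ 1 := fun h => hj1 ((A.valuation_le_one_iff _).mp h)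
      exact lt_of_lt_of_le (not_le.mp h1) (hmax j1 (Finset.mem_univ j1))
    have hb0 : b j0 ≠ 0 := by
      intro h0
      rw [h0, map_zero] at hv1
      exact not_lt.mpr zero_le hv1
    have hv0 : A.valuation (b j0) ≠ 0 := (Valuation.ne_zero_iff _).mpr hb0
    -- the rescaled coefficients
    have hcA : ∀ j, b j / b j0 ∈ A := by
      intro j
      rw [← A.valuation_le_one_iff, map_div₀]
      exact div_le_one_of_le₀ (hmax j (Finset.mem_univ j)) zero_le
    have huA : (b j0)⁻¹ ∈ A := by
      rw [← A.valuation_le_one_iff, map_inv₀]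
      exact inv_le_one_of_one_le₀ hv1.le
    have hunit : ¬ IsUnit (⟨(b j0)⁻¹, huA⟩ : A) := by
      intro hu
      have h1 := (A.valuation_eq_one_iff ⟨(b j0)⁻¹, huA⟩).mp hu
      rw [map_inv₀] at h1
      have h2 : A.valuation (b j0) = 1 := by
        rw [← inv_inv (A.valuation (b j0)), h1, inv_one]
      rw [h2] at hv1
      exact lt_irrefl _ hv1
    have hπu : π ⟨(b j0)⁻¹, huA⟩ = 0 := map_eq_zero_of_not_isUnit A π hπ hunit
    -- the relation in `A`
    have hrelA : ∀ n : ℕ, ∑ j, (⟨b j / b j0, hcA j⟩ : A) * ((PowerSeries.coeff n (qf j) : ℤ) : A) =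
        ⟨(b j0)⁻¹, huA⟩ * PowerSeries.coeff n qs := by
      intro n
      apply Subtype.ext
      push_cast
      rw [hb n, Finset.mul_sum]
      refine Finset.sum_congr rfl fun j _ => ?_
      field_simp
    -- its reduction
    have hrelk : ∑ j, π ⟨b j / b j0, hcA j⟩ • (qf j).map (Int.castRingHom k) = 0 := by
      ext n
      rw [map_sum, map_zero]
      have h1 := congrArg π (hrelA n)
      rw [map_mul, hπu, zero_mul, map_sum] at h1
      rw [← h1]
      refine Finset.sum_congr rfl fun j _ => ?_
      rw [map_mul, map_intCast, PowerSeries.coeff_smul, PowerSeries.coeff_map, eq_intCast,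
        smul_eq_mul]
    have h0 := (linearIndependent_iff'.mp hsat) Finset.univ
      (fun j => π ⟨b j / b j0, hcA j⟩) hrelk j0 (Finset.mem_univ j0)
    have h1 : (⟨b j0 / b j0, hcA j0⟩ : A) = 1 := Subtype.ext (div_self hb0)
    rw [h1, map_one] at h0
    exact one_ne_zero h0
  refine ⟨fun j => π ⟨b j, hbA j⟩, ?_⟩
  ext n
  have hrelA : PowerSeries.coeff n qs =
      ∑ j, (⟨b j, hbA j⟩ : A) * ((PowerSeries.coeff n (qf j) : ℤ) : A) := by
    apply Subtype.ext
    push_cast
    exact hb n
  rw [PowerSeries.coeff_map, hrelA, map_sum, map_sum]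
  refine Finset.sum_congr rfl fun j _ => ?_
  rw [map_mul, map_intCast, PowerSeries.coeff_smul, PowerSeries.coeff_map, eq_intCast,
    smul_eq_mul]

include hπ in
/-- **Piece SAT of DESC: `A`-saturation.**  An `A`-integral cusp form of level `M'` reduces into
the `k`-span of the reductions of a saturated integral basis. -/
theorem exists_coeffs_of_integral {M' : ℕ} {r' : ℕ}
    (f' : Fin r' → CuspForm (Gamma0 M') 2) (qf' : Fin r' → PowerSeries ℤ)
    (hqf' : ∀ j, qExpansion 1 (f' j) = (qf' j).map (Int.castRingHom ℂ))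
    (hspan : Submodule.span ℂ (Set.range f') = ⊤)
    (hsat : LinearIndependent k (fun j => (qf' j).map (Int.castRingHom k)))
    (s' : CuspForm (Gamma0 M') 2) (qs' : PowerSeries A)
    (hqs' : qExpansion 1 s' = qs'.map (iota.comp A.subtype)) :
    ∃ c' : Fin r' → k, HahnSeries.ofPowerSeries ℤ k (qs'.map π) =
      ∑ j, HahnSeries.C (c' j) *
        HahnSeries.ofPowerSeries ℤ k ((qf' j).map (Int.castRingHom k)) := by
  classical
  -- `s'` as a `ℂ`-combination
  have hmem : s' ∈ Submodule.span ℂ (Set.range f') := by rw [hspan]; exact Submodule.mem_top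
  obtain ⟨β, hβ⟩ := (Submodule.mem_span_range_iff_exists_fun ℂ).mp hmem
  have hcoeff : ∀ n : ℕ, iota ((PowerSeries.coeff n qs' : A) : Kbar) =
      ∑ j, β j * ((PowerSeries.coeff n (qf' j) : ℤ) : ℂ) := by
    intro n
    have h1 : Fermat.Agent.S23.qMap M' 2 s' n = iota ((PowerSeries.coeff n qs' : A) : Kbar) := by
      rw [Fermat.Agent.S23.qMap_apply]
      show PowerSeries.coeff n (qExpansion 1 s') = _
      rw [hqs', PowerSeries.coeff_map]
      rfl
    rw [← h1, ← hβ, map_sum, Finset.sum_apply]
    refine Finset.sum_congr rfl fun j _ => ?_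
    rw [map_smul, Pi.smul_apply, smul_eq_mul, Fermat.Agent.S23.qMap_apply]
    congr 1
    show PowerSeries.coeff n (qExpansion 1 (f' j)) = _
    rw [hqf' j, PowerSeries.coeff_map, eq_intCast]
  -- a `ℚ̄`-linear retraction of `ι`
  letI : Algebra Kbar ℂ := iota.toAlgebra
  have hinj : LinearMap.ker (Algebra.linearMap Kbar ℂ) = ⊥ := by
    rw [LinearMap.ker_eq_bot]
    exact iota_injective
  obtain ⟨P, hP⟩ := LinearMap.exists_leftInverse_of_injective (Algebra.linearMap Kbar ℂ) hinj
  have hPι : ∀ x : Kbar, P (iota x) = x := fun x => by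
    have h := LinearMap.congr_fun hP x
    simp only [LinearMap.coe_comp, Function.comp_apply, Algebra.linearMap_apply,
      LinearMap.id_coe, id_eq] at h
    exact h
  have hb : ∀ n : ℕ, ((PowerSeries.coeff n qs' : A) : Kbar) =
      ∑ j, P (β j) * ((PowerSeries.coeff n (qf' j) : ℤ) : Kbar) := by
    intro n
    have h1 := congrArg P (hcoeff n)
    rw [hPι, map_sum] at h1
    rw [h1]
    refine Finset.sum_congr rfl fun j _ => ?_
    have h2 : β j * ((PowerSeries.coeff n (qf' j) : ℤ) : ℂ) =
        ((PowerSeries.coeff n (qf' j) : ℤ) : Kbar) • β j := by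
      rw [Algebra.smul_def, mul_comm]
      congr 1
      show _ = iota _
      rw [map_intCast]
    rw [h2, map_smul, smul_eq_mul, mul_comm]
  obtain ⟨c, hc⟩ := exists_coeffs_core A π hπ qf' hsat qs' (fun j => P (β j)) hb
  refine ⟨c, ?_⟩
  rw [hc, map_sum]
  refine Finset.sum_congr rfl fun j _ => ?_
  rw [← HahnSeries.ofPowerSeries_C, ← map_mul]
  congr 1
  ext n
  rw [PowerSeries.coeff_smul, PowerSeries.coeff_C_mul, smul_eq_mul]

end Fermat.Agent.S40x.C2.Descent.Saturate

end
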