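/-
P-S44 (block C2, route OMEGA, leaf DESC, composite) -- helper23.

`mem_span_of_descends`: the consumer form of the descent `Mh = lcm(4,M') → M'`.

Context: `ℓ` prime, `A` a valuation subring of `ℚ̄`, `π : A → k` onto an algebraically closed field
of characteristic `ℓ`; levels `M' ∣ Mh`, `ℓ ∤ Mh`.  Inputs:
* `(f, qf)`: ANY cusp forms of level `Mh` with integral `q`-expansions (e.g. the basis of
  `OmegaFinal.exists_basis_hOmega`);
* `(f', qf')`: a saturated integral basis of level `M'` (`Forms.exists_saturated_basis M'`);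
* `hdesc`: the DESC literal `Descent.exists_cuspForm_of_descends` of note 2775 (helper53), as a
  HYPOTHESIS (so that this file does not wait for it);
* `fb ≠ 0` in `Fk k M'` with `dlog fb = ∑ C (c i) (qf i mod ℓ)`.
Output: `dlog fb = ∑ C (c' j) (qf' j mod ℓ)`: the logarithmic differential is a combination of
reduced cusp forms of the LOWER level `M'`.

Also `theta_div_mem_Fk` (piece D5 of note 2775): for `u ∈ Fk k N`, `(N : k) ≠ 0`,
`θ u = y θ j` with `y ∈ Fk k N` (from the `p`-basis chain rule `DlogReg.D_map_pbasis`).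
-/
import Mathlib
import Fermat.Agent.S40x.C2.Descent.Saturate
import Fermat.Agent.S40x.C2.DlogReg
import Fermat.Agent.S40x.C2.DlogHecke

set_option autoImplicit false
set_option linter.unusedSectionVars false
set_option linter.style.haveILetI false

noncomputable section

namespace Fermat.Agent.S40x.C2.Descent.SpanDescends

open Polynomial ModularCurve Fermat.Agent.S28 Fermat.Agent.Lib.Residue
open IntermediateField HahnSeries CongruenceSubgroup Fermat.Agent.S24.Setup
open Fermat.Agent.Gateway.GoodRed Fermat.Agent.Gateway.GoodRed.ConjFamily UpperHalfPlane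
open Fermat.Agent.S40x.C2.DlogReg Fermat.Agent.S40x.C2.PBasisVal Fermat.Agent.S16.Two
open Fermat.Agent.S40x.C2.Descent.Saturate

section D5

variable {k : Type} [Field k] [IsAlgClosed k] {N : ℕ} [NeZero N]

/-- **Piece D5**: the `q`-derivative of a function of the special fibre is a multiple of the
`q`-derivative of `j` by a function of the special fibre. -/
theorem D_div_mem_Fk (ℓ : ℕ) [Fact ℓ.Prime] [CharP k ℓ] (hNk : ((N : ℕ) : k) ≠ 0) (u : Fk k N) :
    ∃ y : Fk k N, D (u : LaurentSeries k) = (y : LaurentSeries k) * D (jqModC k) := by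
  haveI : CharP (Fk k N) ℓ := charP_of_injective_algebraMap (algebraMap k (Fk k N)).injective ℓ
  haveI := isSeparable_Fk hNk
  haveI : Algebra.IsSeparable k⟮jFk k N - algebraMap k (Fk k N) 0⟯ (Fk k N) := by
    rw [adjoin_sub_algebraMap]
    infer_instance
  obtain ⟨y, hy⟩ := exists_pbasis (k := k) ℓ (jFk k N - algebraMap k (Fk k N) 0) u
  refine ⟨∑ i ∈ Finset.range ℓ, (i : Fk k N) * y i ^ ℓ *
    (jFk k N - algebraMap k (Fk k N) 0) ^ (i - 1), ?_⟩
  have h := D_map_pbasis ℓ (incl (k := k) (N := N)) incl_algebraMap (jFk k N) 0 y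
  rw [← hy] at h
  exact h

theorem theta_div_mem_Fk (ℓ : ℕ) [Fact ℓ.Prime] [CharP k ℓ] (hNk : ((N : ℕ) : k) ≠ 0)
    (u : LaurentSeries k) (hu : u ∈ Fk k N) :
    ∃ y ∈ Fk k N, HahnSeries.single (1 : ℤ) (1 : k) * D u =
      y * (HahnSeries.single (1 : ℤ) (1 : k) * D (jqModC k)) := by
  obtain ⟨y, hy⟩ := D_div_mem_Fk ℓ hNk (⟨u, hu⟩ : Fk k N)
  refine ⟨y, y.2, ?_⟩
  have hy' : D u = (y : LaurentSeries k) * D (jqModC k) := hy
  rw [hy']
  ring

end D5

section Main

variable (ℓ : ℕ) [Fact ℓ.Prime] (A : ValuationSubring Kbar)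
  {k : Type} [Field k] [IsAlgClosed k] [CharP k ℓ] (π : A →+* k)
  (hπ : Function.Surjective π)

/-- `q`-expansion of a linear combination of cusp forms with integral `q`-expansions. -/
theorem qExpansion_sum_smul {M : ℕ} {g : ℕ} (f : Fin g → CuspForm (Gamma0 M) 2)
    (qf : Fin g → PowerSeries ℤ)
    (hqf : ∀ i, qExpansion 1 (f i) = (qf i).map (Int.castRingHom ℂ)) (a : Fin g → A) :
    qExpansion 1 (∑ i, (iota.comp A.subtype) (a i) • f i : CuspForm (Gamma0 M) 2) =
      (∑ i, a i • (qf i).map (Int.castRingHom A)).map (iota.comp A.subtype) := by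
  ext n
  have h1 : PowerSeries.coeff n (qExpansion 1
      (∑ i, (iota.comp A.subtype) (a i) • f i : CuspForm (Gamma0 M) 2)) =
      Fermat.Agent.S23.qMap M 2 (∑ i, (iota.comp A.subtype) (a i) • f i) n := rfl
  rw [h1, map_sum, Finset.sum_apply, PowerSeries.coeff_map, map_sum, map_sum]
  refine Finset.sum_congr rfl fun i _ => ?_
  rw [map_smul, Pi.smul_apply, smul_eq_mul, Fermat.Agent.S23.qMap_apply]
  have h2 : ModularFormClass.qCoeff (⇑(f i)) n = PowerSeries.coeff n (qExpansion 1 (f i)) := rfl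
  rw [h2, hqf i, PowerSeries.coeff_map, PowerSeries.coeff_smul, PowerSeries.coeff_map,
    smul_eq_mul, map_mul, eq_intCast, eq_intCast, map_intCast]

include hπ in
/-- **DESC, consumer form.** -/
theorem mem_span_of_descends {M' Mh : ℕ} [NeZero M'] [NeZero Mh] (hℓM' : ¬ ℓ ∣ M')
    {g : ℕ} (f : Fin g → CuspForm (Gamma0 Mh) 2) (qf : Fin g → PowerSeries ℤ)
    (hqf : ∀ i, qExpansion 1 (f i) = (qf i).map (Int.castRingHom ℂ))
    {r' : ℕ} (f' : Fin r' → CuspForm (Gamma0 M') 2) (qf' : Fin r' → PowerSeries ℤ)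
    (hqf' : ∀ j, qExpansion 1 (f' j) = (qf' j).map (Int.castRingHom ℂ))
    (hspan' : Submodule.span ℂ (Set.range f') = ⊤)
    (hsat' : LinearIndependent k (fun j => (qf' j).map (Int.castRingHom k)))
    (hdesc : ∀ (s : CuspForm (Gamma0 Mh) 2) (qs : PowerSeries A),
      qExpansion 1 s = qs.map (iota.comp A.subtype) →
      ∀ y0 : LaurentSeries k, y0 ∈ Fk k M' →
      HahnSeries.ofPowerSeries ℤ k (qs.map π) =
        y0 * (HahnSeries.single (1 : ℤ) (1 : k) * D (jqModC k)) →
      ∃ (s' : CuspForm (Gamma0 M') 2) (qs' : PowerSeries A),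
        qExpansion 1 s' = qs'.map (iota.comp A.subtype) ∧ qs'.map π = qs.map π)
    (fb : LaurentSeries k) (hfb : fb ∈ Fk k M') (hfb0 : fb ≠ 0) (c : Fin g → k)
    (hc : Fermat.Agent.S40x.C2.DlogHecke.dlog fb =
      ∑ i, HahnSeries.C (c i) * HahnSeries.ofPowerSeries ℤ k ((qf i).map (Int.castRingHom k))) :
    ∃ c' : Fin r' → k, Fermat.Agent.S40x.C2.DlogHecke.dlog fb =
      ∑ j, HahnSeries.C (c' j) *
        HahnSeries.ofPowerSeries ℤ k ((qf' j).map (Int.castRingHom k)) := by
  classical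
  have hM'k : ((M' : ℕ) : k) ≠ 0 := by
    rw [Ne, CharP.cast_eq_zero_iff k ℓ]
    exact hℓM'
  -- lift the coefficients to `A`
  choose a ha using fun i => hπ (c i)
  set s : CuspForm (Gamma0 Mh) 2 := ∑ i, (iota.comp A.subtype) (a i) • f i with hs
  set qs : PowerSeries A := ∑ i, a i • (qf i).map (Int.castRingHom A) with hqsdef
  have hqs : qExpansion 1 s = qs.map (iota.comp A.subtype) := qExpansion_sum_smul A f qf hqf a
  -- the reduction of `qs`
  have hqsπ : HahnSeries.ofPowerSeries ℤ k (qs.map π) =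
      Fermat.Agent.S40x.C2.DlogHecke.dlog fb := by
    rw [hc, hqsdef, map_sum, map_sum]
    refine Finset.sum_congr rfl fun i _ => ?_
    rw [← HahnSeries.ofPowerSeries_C, ← map_mul]
    congr 1
    ext n
    rw [PowerSeries.coeff_map, PowerSeries.coeff_smul, PowerSeries.coeff_map,
      PowerSeries.coeff_C_mul, PowerSeries.coeff_map, smul_eq_mul, map_mul, ha i, eq_intCast,
      eq_intCast, map_intCast]
  -- `dlog fb = y0 * θ j` with `y0 ∈ Fk k M'`
  obtain ⟨y, hyM, hy⟩ := theta_div_mem_Fk ℓ hM'k fb hfb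
  have hred : HahnSeries.ofPowerSeries ℤ k (qs.map π) =
      (y / fb) * (HahnSeries.single (1 : ℤ) (1 : k) * D (jqModC k)) := by
    rw [hqsπ, Fermat.Agent.S40x.C2.DlogHecke.dlog, thetaL, hy]
    field_simp
  obtain ⟨s', qs', hqs', hπ'⟩ := hdesc s qs hqs (y / fb) (div_mem hyM hfb) hred
  obtain ⟨c', hc'⟩ := exists_coeffs_of_integral A π hπ f' qf' hqf' hspan' hsat' s' qs' hqs'
  exact ⟨c', by rw [← hc', hπ', hqsπ]⟩

end Main

end Fermat.Agent.S40x.C2.Descent.SpanDescends

end
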