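/-
P-S44 (block C2, route OMEGA) -- helper23.

`hOmega` AT THE LOWER LEVEL: Steps 1-4 + 6 of the C2 proof in one consumer theorem, with the DESC
literal `Descent.exists_cuspForm_of_descends` (note 2775, helper53) as its only hypothesis.

Levels `M' ∣ Mh`, `4 ∣ Mh`, `ℓ ∤ Mh` (`Mh = lcm(4,M')` in the application).  There is a saturated
integral basis `f' j / qf' j` of `S₂(Γ₀(M'))` such that for every `fb ≠ 0` in the special fibre
`Fk k Mh` which lies in the subfield `Fk k M'` and whose order is divisible by `ℓ` at EVERY place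
of `Fk k Mh`,

  `dlog fb ∈ span_k {qf' j mod ℓ}`      (`exists_basis_hOmega_descended`).

= `OmegaFinal.exists_basis_hOmega` at level `Mh` + `SpanDescends.mem_span_of_descends` +
`Forms.exists_saturated_basis M'`.
-/
import Mathlib
import Fermat.Agent.S40x.C2.OmegaFinal
import Fermat.Agent.S40x.C2.Descent.SpanDescends

set_option autoImplicit false
set_option linter.unusedSectionVars false
set_option linter.style.haveILetI false

noncomputable section

namespace Fermat.Agent.S40x.C2.Descent.OmegaDescended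

open Polynomial ModularCurve Fermat.Agent.S28 Fermat.Agent.Lib.Residue
open IntermediateField HahnSeries AlgebraicCurve CongruenceSubgroup Fermat.Agent.S24.Setup
open Fermat.Agent.Gateway.GoodRed Fermat.Agent.Gateway.GoodRed.ConjFamily UpperHalfPlane
open Fermat.Agent.S40x.C2.OmegaFinal Fermat.Agent.S40x.C2.Descent.SpanDescends

variable (ℓ : ℕ) [Fact ℓ.Prime] (A : ValuationSubring Kbar)
  {k : Type} [Field k] [IsAlgClosed k] [CharP k ℓ] (π : A →+* k)
  (hπ : Function.Surjective π)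

include hπ in
/-- **`hOmega` descended to the level `M'`.** -/
theorem exists_basis_hOmega_descended {M' Mh : ℕ} [NeZero M'] [NeZero Mh] (hM : M' ∣ Mh)
    (h4 : 4 ∣ Mh) (hℓM : ¬ ℓ ∣ Mh) (hA : A.LiesOverPrime ℓ)
    (hdesc : ∀ (s : CuspForm (Gamma0 Mh) 2) (qs : PowerSeries A),
      qExpansion 1 s = qs.map (iota.comp A.subtype) →
      ∀ y0 : LaurentSeries k, y0 ∈ Fk k M' →
      HahnSeries.ofPowerSeries ℤ k (qs.map π) =
        y0 * (HahnSeries.single (1 : ℤ) (1 : k) * D (jqModC k)) →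
      ∃ (s' : CuspForm (Gamma0 M') 2) (qs' : PowerSeries A),
        qExpansion 1 s' = qs'.map (iota.comp A.subtype) ∧ qs'.map π = qs.map π) :
    ∃ (f' : Fin (Module.finrank ℂ (CuspForm (Gamma0 M') 2)) → CuspForm (Gamma0 M') 2)
      (qf' : Fin (Module.finrank ℂ (CuspForm (Gamma0 M') 2)) → PowerSeries ℤ),
      (∀ j, qExpansion 1 (f' j) = (qf' j).map (Int.castRingHom ℂ)) ∧
      (∀ j, PowerSeries.constantCoeff (qf' j) = 0) ∧
      LinearIndependent ℂ f' ∧ Submodule.span ℂ (Set.range f') = ⊤ ∧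
      LinearIndependent k (fun j => (qf' j).map (Int.castRingHom k)) ∧
      ∀ fb : Fk k Mh, fb ≠ 0 → (fb : LaurentSeries k) ∈ Fk k M' →
        (∀ P : Place k (Fk k Mh), (ℓ : ℤ) ∣ P.ord fb) →
        Fermat.Agent.S40x.C2.DlogHecke.dlog (fb : LaurentSeries k) ∈
          Submodule.span k (Set.range fun j : Fin (Module.finrank ℂ (CuspForm (Gamma0 M') 2)) =>
            (HahnSeries.ofPowerSeries ℤ k ((qf' j).map (Int.castRingHom k)) :
              LaurentSeries k)) := by
  classical
  have hℓ : ℓ.Prime := Fact.out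
  have hℓM' : ¬ ℓ ∣ M' := fun h => hℓM (h.trans hM)
  obtain ⟨f', qf', hqf', hc0', hfli', hfspan', hsat'⟩ := Forms.exists_saturated_basis M'
  obtain ⟨f, qf, hqf, -, -, -, -, hOm⟩ := exists_basis_hOmega ℓ A π hπ hℓM h4 hA
  refine ⟨f', qf', hqf', hc0', hfli', hfspan', hsat' k ℓ hℓ, ?_⟩
  intro fb hfb hfbM' hf
  have hfbL : (fb : LaurentSeries k) ≠ 0 := fun h => hfb (Subtype.ext h)
  obtain ⟨c, hc⟩ := (Submodule.mem_span_range_iff_exists_fun k).mp (hOm fb hfb hf)
  have hc' : Fermat.Agent.S40x.C2.DlogHecke.dlog (fb : LaurentSeries k) =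
      ∑ i, HahnSeries.C (c i) *
        HahnSeries.ofPowerSeries ℤ k ((qf i).map (Int.castRingHom k)) := by
    rw [← hc]
    refine Finset.sum_congr rfl fun i _ => ?_
    rw [HahnSeries.C_mul_eq_smul]
  obtain ⟨c', hc''⟩ := mem_span_of_descends ℓ A π hπ hℓM' f qf hqf f' qf' hqf' hfspan'
    (hsat' k ℓ hℓ) hdesc (fb : LaurentSeries k) hfbM' hfbL c hc'
  rw [hc'']
  refine Submodule.sum_mem _ fun j _ => ?_
  rw [HahnSeries.C_mul_eq_smul]
  exact Submodule.smul_mem _ _ (Submodule.subset_span ⟨j, rfl⟩)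

end Fermat.Agent.S40x.C2.Descent.OmegaDescended

end
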