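import Mathlib

/-!
# P-S44 (block C2, route OMEGA), leaf DESC, piece (IDX): `ℓ ∤ [Γ₀(M') : Γ₀(lcm(4, M'))]`, `ℓ ≥ 5`

No index formula is needed: `Γ₀(M') ⊓ Γ(4) ≤ Γ₀(Mh)` for `Mh ∣ lcm(4, M')`, so the relative index
`[Γ₀(M') : Γ₀(Mh)]` divides `[Γ₀(M') : Γ₀(M') ⊓ Γ(4)]`, which divides `[SL(2,ℤ) : Γ(4)]` (`Γ(4)` is
normal); the quotient `SL(2,ℤ) / Γ(4)` embeds into `SL(2, ℤ/4)`, a group of exponent dividing `12`
(`decide`), so by Cauchy the only primes dividing its order are `2` and `3`.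

* `not_dvd_relIndex` : `ℓ ≥ 5` prime, `Mh ∣ lcm(4, M')` ⟹ `¬ ℓ ∣ (Gamma0 Mh).relIndex (Gamma0 M')`;
* `not_dvd_relIndex_lcm_four` : the case `Mh = lcm(4, M')` = hypothesis `hidx` of
  `Descent.exists_cuspForm_of_descends`.
-/

set_option autoImplicit false
set_option linter.style.haveILetI false

namespace Fermat.Agent.S40x.C2.Descent.Index

open Matrix.SpecialLinearGroup CongruenceSubgroup
open scoped MatrixGroups

set_option maxRecDepth 1000000 in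
/-- `SL(2, ℤ/4)` has exponent dividing `12`. -/
theorem pow_twelve_eq_one : ∀ g : SL(2, ZMod 4), g ^ 12 = 1 := by decide

/-- the primes dividing `[SL(2,ℤ) : Γ(4)]` divide `12`. -/
theorem dvd_twelve_of_dvd_index_Gamma_four {l : ℕ} (hl : l.Prime)
    (h : l ∣ (Gamma 4).index) : l ∣ 12 := by
  let φ : SL(2, ℤ) →* SL(2, ZMod 4) :=
    Matrix.SpecialLinearGroup.map (Int.castRingHom (ZMod 4))
  have hker : Gamma 4 = φ.ker := rfl
  rw [hker] at h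
  haveI : Finite (SL(2, ℤ) ⧸ φ.ker) :=
    Finite.of_injective _ (QuotientGroup.kerLift_injective φ)
  haveI : Fact l.Prime := ⟨hl⟩
  have h' : l ∣ Nat.card (SL(2, ℤ) ⧸ φ.ker) := h
  obtain ⟨x, hx⟩ := exists_prime_orderOf_dvd_card' l h'
  have h12 : x ^ 12 = 1 := by
    apply QuotientGroup.kerLift_injective φ
    rw [map_pow, map_one]
    exact pow_twelve_eq_one _
  rw [← hx]
  exact orderOf_dvd_of_pow_eq_one h12

/-- **`ℓ ∤ [Γ₀(M') : Γ₀(Mh)]`** for a prime `ℓ ≥ 5` and `Mh ∣ lcm(4, M')`. -/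
theorem not_dvd_relIndex {l : ℕ} (hl : l.Prime) (h5 : 5 ≤ l) {M' Mh : ℕ}
    (hMh : Mh ∣ Nat.lcm 4 M') : ¬ l ∣ (Gamma0 Mh).relIndex (Gamma0 M') := by
  intro hdvd
  have hle : Gamma0 M' ⊓ Gamma 4 ≤ Gamma0 Mh := by
    intro γ hγ
    obtain ⟨h1, h2⟩ := Subgroup.mem_inf.mp hγ
    rw [Gamma0_mem] at h1 ⊢
    rw [Gamma_mem] at h2
    have h4 : ((4 : ℕ) : ℤ) ∣ γ 1 0 := (ZMod.intCast_zmod_eq_zero_iff_dvd _ 4).mp h2.2.2.1
    have hM : ((M' : ℕ) : ℤ) ∣ γ 1 0 := (ZMod.intCast_zmod_eq_zero_iff_dvd _ M').mp h1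
    have hl4 : ((Nat.lcm 4 M' : ℕ) : ℤ) ∣ γ 1 0 := by
      rw [← Int.natAbs_dvd_natAbs, Int.natAbs_natCast]
      apply Nat.lcm_dvd
      · have := Int.natAbs_dvd_natAbs.mpr h4
        simpa using this
      · have := Int.natAbs_dvd_natAbs.mpr hM
        simpa using this
    have hh : ((Mh : ℕ) : ℤ) ∣ γ 1 0 := (Int.natCast_dvd_natCast.mpr hMh).trans hl4
    exact (ZMod.intCast_zmod_eq_zero_iff_dvd _ Mh).mpr hh
  have h1 : (Gamma0 Mh).relIndex (Gamma0 M') ∣ (Gamma0 M' ⊓ Gamma 4).relIndex (Gamma0 M') :=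
    Subgroup.relIndex_dvd_of_le_left _ hle
  rw [Subgroup.inf_relIndex_left] at h1
  haveI := Gamma_normal 4
  have h2 : (Gamma 4).relIndex (Gamma0 M') ∣ (Gamma 4).index :=
    Subgroup.relIndex_dvd_index_of_normal (Gamma 4) (Gamma0 M')
  have h3 : l ∣ 12 := dvd_twelve_of_dvd_index_Gamma_four hl (hdvd.trans (h1.trans h2))
  have h4 : l ≤ 12 := Nat.le_of_dvd (by norm_num) h3
  interval_cases l <;> first | omega | exact absurd hl (by norm_num)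

/-- the case `Mh = lcm(4, M')`. -/
theorem not_dvd_relIndex_lcm_four {l : ℕ} (hl : l.Prime) (h5 : 5 ≤ l) (M' : ℕ) :
    ¬ l ∣ (Gamma0 (Nat.lcm 4 M')).relIndex (Gamma0 M') :=
  not_dvd_relIndex hl h5 (dvd_refl _)

end Fermat.Agent.S40x.C2.Descent.Index
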