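import Mathlib
import Fermat.Agent.Gateway.GoodRed.Forms
import Fermat.Agent.Gateway.GoodRed.RedEmb
import Fermat.Agent.Gateway.AuxLevel.Membership
import Fermat.Agent.S24.PartV.Main

set_option autoImplicit false

/-!
# P-S44 (C2, leaf DESC), part 1: the analytic embeddings `tau g`

* `tau_incl_of_mem_Gamma0` (D1): for `M' ∣ Mh`, `γ ∈ Γ₀(M')` and `Y ∈ F_{M'} ⊆ F_{Mh}` the analytic
  embedding `tau Mh γ` sends `Y` to its standard expansion `Y(z^Mh)`.
* `exists_emb_eq_tau` (D2): every analytic embedding `tau Mh g` is (the base change to `ℂ` of) a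
  cusp embedding `σ : ConjFamily.Emb Kbar Mh`.
-/

set_option linter.unusedSectionVars false
set_option linter.style.haveILetI false

noncomputable section

namespace Fermat.Agent.S40x.C2.Descent

open Polynomial ModularCurve Fermat.Agent.S28 Fermat.Agent.Gateway.Red Fermat.Agent.Lib.Residue
open IntermediateField HahnSeries CongruenceSubgroup Fermat.Agent.S24 Fermat.Agent.S24.Setup
open Fermat.Agent.S24.QExp
open Fermat.Agent.Gateway.AuxLevel Fermat.Agent.Gateway.GoodRed Fermat.Agent.Gateway.Dict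
open Fermat.Agent.Gateway.GoodRed.Forms UpperHalfPlane
open scoped MatrixGroups

/-- Two ring homs out of `F_N` into a field agreeing on constants and on the generators `j(dz)`
are equal. -/
theorem ringHom_ext_gen {N : ℕ} {Ω : Type*} [Field Ω] (f g : FF N →+* Ω)
    (hK : ∀ c : Kbar, f (algebraMap Kbar (FF N) c) = g (algebraMap Kbar (FF N) c))
    (hG : ∀ x ∈ genSetF N, f x = g x) : f = g := by
  refine RingHom.ext fun x => ?_
  have hx : x ∈ IntermediateField.adjoin Kbar (genSetF N) := by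
    rw [GenRing.adjoin_genSetF]; trivial
  induction hx using IntermediateField.adjoin_induction with
  | mem x hx => exact hG x hx
  | algebraMap c => exact hK c
  | add x y _ _ h1 h2 => rw [map_add, map_add, h1, h2]
  | inv x _ h1 => rw [map_inv₀, map_inv₀, h1]
  | mul x y _ _ h1 h2 => rw [map_mul, map_mul, h1, h2]

section D1

variable {M' Mh : ℕ} [NeZero M'] [NeZero Mh] (hM : M' ∣ Mh)

/-- the inclusion `F_{M'} → F_{Mh}`. -/
def inclFF : FF M' →+* FF Mh where
  toFun Y := ⟨(Y : LaurentSeries Kbar), FF_mono hM Y.2⟩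
  map_one' := rfl
  map_mul' _ _ := rfl
  map_zero' := rfl
  map_add' _ _ := rfl

theorem coe_inclFF (Y : FF M') :
    ((inclFF hM Y : FF Mh) : LaurentSeries Kbar) = (Y : LaurentSeries Kbar) := by
  cases Y
  rfl

theorem inclFF_const (c : Kbar) :
    inclFF hM (algebraMap Kbar (FF M') c) = algebraMap Kbar (FF Mh) c := by
  apply Subtype.ext
  rw [coe_inclFF]
  exact (coe_algebraMap_FBar (L := Kbar) M' c).trans (coe_algebraMap_FBar (L := Kbar) Mh c).symm

theorem inclFF_gen {d : ℕ} [NeZero d] (hd : d ∣ M') :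
    inclFF hM (gen M' hd) = gen Mh (hd.trans hM) := by
  apply Subtype.ext
  rw [coe_inclFF, coe_gen, coe_gen]

/-- the value of `tauC g` on the generators `j(dz)`. -/
theorem tauC_gen_dvd (g : SL(2, ℤ)) {d : ℕ} [NeZero d] (hd : d ∣ Mh) :
    tauC Mh g (SetupC.gen Mh hd) = zL Mh ⟨g • JLevel.jd d, JD.isCuspFn_smul_jd hd g⟩ := by
  apply tauC_eq
  rw [EmbedC.embC_gen, MerFun.sl_smul_algebraMap]

/-- for `γ ∈ Γ₀(M')` and `d ∣ M'` the analytic embedding `tau Mh γ` is standard on `j(dz)`. -/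
theorem tau_gen_of_mem_Gamma0 {γ : SL(2, ℤ)} (hγ : γ ∈ Gamma0 M') {d : ℕ} [NeZero d]
    (hd : d ∣ M') :
    tau Mh γ (gen Mh (hd.trans hM)) = qExpand ℂ Mh (coeffMap iota (jK d)) := by
  rw [tau_apply, iotaF_gen, tauC_gen_dvd]
  have h1 : γ • JLevel.jd d = JLevel.jd d := JLevel.smul_jd_of_mem_Gamma0 hd hγ
  have hmem : JLevel.jd d ∈ CuspOrd.cuspFnAlg Mh := by
    have := JD.isCuspFn_smul_jd (hd.trans hM) (1 : SL(2, ℤ))
    rw [one_smul] at this
    exact this
  have h2 : (⟨γ • JLevel.jd d, JD.isCuspFn_smul_jd (hd.trans hM) γ⟩ : CuspOrd.cuspFnAlg Mh) =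
      ⟨JLevel.jd d, hmem⟩ := Subtype.ext h1
  rw [h2, zL_eq_qExpand Mh (JLevel.jd d) (jd_mem_PerFun d)]
  congr 1
  rw [coeffMap_iota_jK]
  exact qLaurent_jdPer d

/-- **(D1)** for `γ ∈ Γ₀(M')` the analytic embedding `tau Mh γ` is the standard expansion
`Y ↦ Y(z^Mh)` on the subfield `F_{M'}` of `F_{Mh}`. -/
theorem tau_incl_of_mem_Gamma0 {γ : SL(2, ℤ)} (hγ : γ ∈ Gamma0 M') (Y : FF M') :
    tau Mh γ (inclFF hM Y) = qExpand ℂ Mh (coeffMap iota (Y : LaurentSeries Kbar)) := by
  have h : (tau Mh γ).comp (inclFF hM) = (qExpand ℂ Mh).comp (phi M') := by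
    apply ringHom_ext_gen
    · intro c
      rw [RingHom.comp_apply, RingHom.comp_apply, inclFF_const, tau_const, phi_algebraMap,
        algebraMap_laurentSeries_eq_single]
      exact (qExpand_C Mh (iota c)).symm
    · rintro x ⟨d, hd0, hd, rfl⟩
      rw [RingHom.comp_apply, RingHom.comp_apply, inclFF_gen, tau_gen_of_mem_Gamma0 hM hγ hd]
      rfl
  exact DFunLike.congr_fun h Y

end D1

section D2

variable (Mh : ℕ) [NeZero Mh]

/-- two ring homs on `F_{Mh}` agreeing on constants and on `j` agree on `K(j)`. -/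
theorem agree_adjoin_j (φ ψ : FF Mh →+* LaurentSeries ℂ)
    (hc : ∀ c : Kbar, φ (algebraMap Kbar (FF Mh) c) = ψ (algebraMap Kbar (FF Mh) c))
    (hj : φ (jF Mh) = ψ (jF Mh)) (e : Kbar⟮jF Mh⟯) :
    φ (algebraMap Kbar⟮jF Mh⟯ (FF Mh) e) = ψ (algebraMap Kbar⟮jF Mh⟯ (FF Mh) e) := by
  have h := Conj.ringHom_eq_of_adjoin (K := Kbar) {jF Mh}
    (φ.comp (algebraMap Kbar⟮jF Mh⟯ (FF Mh))) (ψ.comp (algebraMap Kbar⟮jF Mh⟯ (FF Mh)))
    (fun c => hc c)
    (fun x hx => by
      rw [Set.mem_singleton_iff] at hx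
      subst hx
      exact hj)
  exact DFunLike.congr_fun h e

theorem coe_jF_eq : ((jF Mh : FF Mh) : LaurentSeries Kbar) = jqModC Kbar := by
  rw [Setup.coe_jF, jK_eq, qExpand_one_apply]

/-- the base change to `ℂ` of a cusp embedding over `Kbar`: value on constants. -/
theorem coeffMap_embF_const (σ : ConjFamily.Emb Kbar Mh) (c : Kbar) :
    ((coeffMap iota).comp (embF σ)) (algebraMap Kbar (FF Mh) c) = HahnSeries.C (iota c) := by
  rw [RingHom.comp_apply, embF_algebraMap Mh σ c, HahnSeries.C_apply, coeffMap_single,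
    HahnSeries.C_apply]

/-- the base change to `ℂ` of a cusp embedding over `Kbar`: value on `j`. -/
theorem coeffMap_embF_jF (σ : ConjFamily.Emb Kbar Mh) :
    ((coeffMap iota).comp (embF σ)) (jF Mh) =
      qExpand ℂ Mh (coeffMap (algebraMap ℚ ℂ) jq) := by
  have h1 : jSF Kbar Mh one_ne_zero (one_dvd Mh) = jF Mh := jSF_one_eq _ (coe_jF_eq Mh)
  rw [RingHom.comp_apply, ← h1, embF_j Mh σ, ModularCurve.coeffMap_qExpand]
  congr 1
  have h2 : jqModC Kbar = jK 1 := by rw [jK_eq, qExpand_one_apply]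
  rw [h2, coeffMap_iota_jK 1]
  congr 1
  exact qExpand_one_apply jq

/-- **(D2)** every analytic embedding `tau Mh g` is the base change to `ℂ` of a cusp embedding
`σ : ConjFamily.Emb Kbar Mh`. -/
theorem exists_emb_eq_tau (g : SL(2, ℤ)) :
    ∃ σ : ConjFamily.Emb Kbar Mh, (coeffMap iota).comp (embF σ) = tau Mh g := by
  classical
  have hNL : ((Mh : ℕ) : Kbar) ≠ 0 := natCast_ne_zero_L Mh
  letI := ConjFamily.fintypeEmb (k := Kbar) (N := Mh) hNL
  obtain ⟨hfd, hfr⟩ := Forms.finrank_FF Mh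
  let τ : ConjFamily.Emb Kbar Mh → (FF Mh →+* LaurentSeries ℂ) :=
    fun σ => (coeffMap iota).comp (embF σ)
  have hτ : Function.Injective τ := by
    intro σ σ' h
    apply embF_injective
    refine RingHom.ext fun x => ?_
    have h1 := DFunLike.congr_fun h x
    exact (coeffMap iota).injective h1
  have hcard : Module.finrank Kbar⟮jF Mh⟯ (FF Mh) ≤ Fintype.card (ConjFamily.Emb Kbar Mh) := by
    rw [hfr, PartV.index_Gamma0, ConjFamily.card_emb_fintype hNL,
      ConjFamily.finrank_Fk_eq_dedekindPsi hNL]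
  obtain ⟨σ, hσ⟩ := exists_eq_of_card (E0 := Kbar⟮jF Mh⟯) τ hτ
    (fun i i' e => agree_adjoin_j Mh _ _
      (fun c => by rw [coeffMap_embF_const, coeffMap_embF_const])
      (by rw [coeffMap_embF_jF, coeffMap_embF_jF]) e)
    hcard (tau Mh g) ConjFamily.embInfty
    (fun e => agree_adjoin_j Mh _ _
      (fun c => by rw [tau_const, coeffMap_embF_const])
      (by rw [tau_jF, coeffMap_embF_jF]) e)
  exact ⟨σ, hσ.symm⟩

end D2

end Fermat.Agent.S40x.C2.Descent

end
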