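import Mathlib

set_option autoImplicit false

/-!
# P-S44 (C2, leaf DESC), part 2: the trace form and its coset representatives

`traceForm M' s` is Mathlib's `CuspForm.trace` from `Γ₀(Mh)` to `Γ₀(M')`.  `exists_reps`: there is
a finite family `γ r ∈ Γ₀(M')` of cardinality `(Gamma0 Mh).relIndex (Gamma0 M')` such that the trace
of every `s` is `∑ r, s ∣[2] (γ r)⁻¹` (the hypothesis `hsum` of `TraceZ.qExpand_trace_eq`).
-/

set_option linter.unusedSectionVars false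
set_option linter.style.haveILetI false

noncomputable section

namespace Fermat.Agent.S40x.C2.Descent

open CongruenceSubgroup UpperHalfPlane
open scoped MatrixGroups ModularForm
open Matrix.SpecialLinearGroup

section D3b

variable {M' Mh : ℕ} [NeZero M'] [NeZero Mh]

/-- the image of `Γ₀(N)` in `GL(2, ℝ)`. -/
abbrev GL0 (N : ℕ) : Subgroup (GL (Fin 2) ℝ) :=
  ((Gamma0 N : Subgroup SL(2, ℤ)) : Subgroup (GL (Fin 2) ℝ))

theorem isFiniteRelIndex_GL0 (Mh M' : ℕ) [NeZero Mh] [NeZero M'] :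
    (GL0 Mh).IsFiniteRelIndex (GL0 M') := by
  have hle : GL0 M' ≤ (mapGL ℝ : SL(2, ℤ) →* GL (Fin 2) ℝ).range := by
    rintro _ ⟨γ, -, rfl⟩
    exact ⟨γ, rfl⟩
  exact Subgroup.isFiniteRelIndex_of_le_right (GL0 Mh) hle

theorem relIndex_GL0 (Mh M' : ℕ) :
    (GL0 Mh).relIndex (GL0 M') = (Gamma0 Mh).relIndex (Gamma0 M') :=
  Subgroup.relIndex_map_map_of_injective _ _ mapGL_injective

/-- the trace of a weight two cusp form of level `Mh` to level `M'`. -/
def traceForm (M' : ℕ) [NeZero M'] (s : CuspForm (Gamma0 Mh) 2) : CuspForm (Gamma0 M') 2 :=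
  haveI := isFiniteRelIndex_GL0 Mh M'
  CuspForm.trace (GL0 M') s

/-- Mathlib's trace as a sum over an arbitrary system of representatives. -/
theorem trace_apply_eq_sum' {𝒢 ℋ : Subgroup (GL (Fin 2) ℝ)} [𝒢.IsFiniteRelIndex ℋ] {k : ℤ}
    {F : Type*} [FunLike F ℍ ℂ] [CuspFormClass F 𝒢 k] (f : F) {R : Type*} [Fintype R]
    (h : R → ℋ)
    (hbij : Function.Bijective (fun r => (QuotientGroup.mk (h r) : ℋ ⧸ 𝒢.subgroupOf ℋ)))
    (τ : ℍ) :
    CuspForm.trace ℋ f τ = ∑ r, ((⇑f : ℍ → ℂ) ∣[k] ((h r : GL (Fin 2) ℝ))⁻¹) τ := by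
  rw [CuspForm.coe_trace, Finset.sum_apply]
  symm
  exact @Fintype.sum_bijective _ _ _ _ (Fintype.ofFinite _) _ _ hbij _
    (fun q => SlashInvariantForm.quotientFunc f q τ)
    fun r => congrFun (SlashInvariantForm.quotientFunc_mk f (h r)).symm τ

/-- **representatives**: a finite family `γ r ∈ Γ₀(M')`, of cardinality `[Γ₀(M') : Γ₀(M') ∩ Γ₀(Mh)]`,
such that the trace of every `s` is `∑ r, s ∣[2] (γ r)⁻¹`. -/
theorem exists_reps (Mh M' : ℕ) [NeZero Mh] [NeZero M'] :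
    ∃ (R : Type) (_ : Fintype R) (γ : R → SL(2, ℤ)), (∀ r, γ r ∈ Gamma0 M') ∧
      Fintype.card R = (Gamma0 Mh).relIndex (Gamma0 M') ∧
      ∀ (s : CuspForm (Gamma0 Mh) 2) (τ : ℍ),
        traceForm M' s τ = ∑ r, ((s : ℍ → ℂ) ∣[(2 : ℤ)] (γ r)⁻¹) τ := by
  classical
  haveI := isFiniteRelIndex_GL0 Mh M'
  let Q := ↥(GL0 M') ⧸ (GL0 Mh).subgroupOf (GL0 M')
  haveI : Finite Q := Subgroup.finite_quotient_of_finiteIndex
  letI : Fintype Q := Fintype.ofFinite Q
  have hex : ∀ q : Q, ∃ γ : SL(2, ℤ), γ ∈ Gamma0 M' ∧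
      mapGL ℝ γ = ((Quotient.out q : ↥(GL0 M')) : GL (Fin 2) ℝ) := by
    intro q
    obtain ⟨γ, hγ, h⟩ := (Quotient.out q : ↥(GL0 M')).2
    exact ⟨γ, hγ, h⟩
  choose γ hγ1 hγ2 using hex
  refine ⟨Q, inferInstance, γ, hγ1, ?_, ?_⟩
  · rw [← relIndex_GL0, Subgroup.relIndex, Subgroup.index, Nat.card_eq_fintype_card]
  · intro s τ
    have hbij : Function.Bijective (fun q : Q =>
        (QuotientGroup.mk (Quotient.out q : ↥(GL0 M')) : Q)) := by
      have : (fun q : Q => (QuotientGroup.mk (Quotient.out q : ↥(GL0 M')) : Q)) = id :=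
        funext fun q => Quotient.out_eq' q
      rw [this]
      exact Function.bijective_id
    have h1 := trace_apply_eq_sum' (𝒢 := GL0 Mh) (ℋ := GL0 M') (k := 2) s
      (fun q : Q => (Quotient.out q : ↥(GL0 M'))) hbij τ
    rw [traceForm, h1]
    refine Finset.sum_congr rfl fun q _ => ?_
    rw [← hγ2 q, ← map_inv]
    rfl

end D3b

end Fermat.Agent.S40x.C2.Descent

end
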