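import Mathlib
import Fermat.Agent.Gateway.GoodRed.Forms

/-!
# P-S44 (block C2, route OMEGA), leaf DESC, piece (D3): the analytic side of the trace descent

`A : FormsData M` (a function `t` of level `M` with analytic avatar `θ`, nowhere vanishing
derivative), `f ∈ S₂(Γ₀(M))` with `q`-expansion `qf` over `Kbar`, `hF = qf / (q dt/dq) ∈ F_M`.
For `g ∈ SL(2,ℤ)` let `tau M g : F_M → ℂ((z))` be the analytic embedding "`z`-expansion of the
`g`-translate" (`Forms/Embeddings`).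

* `tau_hF`, `tau_tF` : `tau M g hF`, `tau M g tF` are the `z`-expansions of `g • (f / D θ)` and of
  `g • θ`;
* `zL_fsl` : the `z`-expansion of `f ∣[2] g⁻¹` is `M⁻¹ z · tau g (hF) · d(tau g t)/dz`;
* `qExpand_qExpansion_eq_sum` : if a cusp form `s''` (any level) is the finite sum of the slashes
  `f ∣[2] (r i)⁻¹` (e.g. Mathlib's trace, `S41/ES/Trace.trace_apply_eq_sum`), then its
  `q`-expansion, read in `z = q^{1/M}`, is the sum of the `z`-expansions of the slashes;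
* `qExpand_trace_eq` : the composite.
-/

set_option autoImplicit false
set_option linter.unusedSectionVars false

open UpperHalfPlane ModularCurve CongruenceSubgroup
open scoped MatrixGroups ModularForm

noncomputable section

namespace Fermat.Agent.S40x.C2.Descent.TraceZ

open Fermat.Agent.S24 Fermat.Agent.S24.QExp Fermat.Agent.S24.Setup Derivative
open Fermat.Agent.S24.CuspOrd (cuspFnAlg)
open Fermat.Agent.Gateway.Dict Fermat.Agent.Gateway.GoodRed.Forms

variable {M : ℕ} [NeZero M] (A : FormsData M)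
  (f : CuspForm ((Gamma0 M : Subgroup SL(2, ℤ)) : Subgroup (GL (Fin 2) ℝ)) 2)
  (qf : PowerSeries Kbar) (hqf : qExpansion 1 (f : ℍ → ℂ) = qf.map iota)

/-- `tau M g hF` is the `z`-expansion of the translate `g • (f / D θ)`. -/
theorem tau_hF (g : SL(2, ℤ)) :
    tau M g (A.hF f qf hqf) = zL M (hsl A.hauptAn f g) := by
  obtain ⟨x, hx1, hx2⟩ := A.exists_xC f qf hqf
  have e : iotaF M (A.hF f qf hqf) = x := Subtype.ext hx2.symm
  rw [tau_apply, e]
  apply tauC_eq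
  rw [hx1, MerFun.sl_smul_algebraMap]
  rfl

/-- `tau M g tF` is the `z`-expansion of the translate `g • θ`. -/
theorem tau_tF (g : SL(2, ℤ)) : tau M g A.tF = zL M (A.hauptAn.tr g) := by
  rw [tau_apply]
  apply tauC_eq
  have e := EmbedC.embC_eq_of_qLaurent_eq M (iotaF M A.tF) A.θ_per A.θ_q
  rw [e, MerFun.sl_smul_algebraMap, ← A.hauptAn_θ]
  rfl

/-- The `z`-expansion of `f ∣[2] g⁻¹`, analytic form. -/
theorem zL_fsl_an (T : HauptAn M) (g : SL(2, ℤ)) :
    zL M (fsl f g) = HahnSeries.C ((M : ℂ)⁻¹) *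
      (HahnSeries.single (1 : ℤ) (1 : ℂ) *
        (zL M (hsl T f g) * Fermat.Agent.Lib.Residue.D (zL M (T.tr g)))) := by
  have h1 : zL M (hsl T f g) * zL M (T.dtr g) = zL M (fsl f g) := by
    rw [← map_mul, hsl_mul]
  rw [HauptAn.dtr, zL_dCusp] at h1
  rw [← h1]
  ring

/-- **The `z`-expansion of `f ∣[2] g⁻¹`** is `M⁻¹ z · tau g (hF) · d(tau g t)/dz`. -/
theorem zL_fsl (g : SL(2, ℤ)) :
    zL M (fsl f g) = HahnSeries.C ((M : ℂ)⁻¹) *
      (HahnSeries.single (1 : ℤ) (1 : ℂ) *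
        (tau M g (A.hF f qf hqf) * Fermat.Agent.Lib.Residue.D (tau M g A.tF))) := by
  rw [tau_hF, tau_tF]
  exact zL_fsl_an f A.hauptAn g

omit [NeZero M] in
/-- a cusp form of any level is a cusp function of level `M`. -/
theorem form_mem_cuspFnAlg {N : ℕ} [NeZero N]
    (s : CuspForm ((Gamma0 N : Subgroup SL(2, ℤ)) : Subgroup (GL (Fin 2) ℝ)) 2) :
    (⟨s, s.holo'⟩ : HolFun) ∈ cuspFnAlg M := by
  have hper := form_mem_perFun s
  refine ⟨s.holo', ?_, hper.2⟩
  intro z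
  have h1 : ∀ (n : ℕ) (w : ℍ), (s : ℍ → ℂ) ((n : ℝ) +ᵥ w) = s w := by
    intro n
    induction n with
    | zero =>
      intro w
      congr 1
      ext
      simp
    | succ n ih =>
      intro w
      have h2 : (((n + 1 : ℕ) : ℝ) +ᵥ w) = (1 : ℝ) +ᵥ ((n : ℝ) +ᵥ w) := by
        ext
        simp only [UpperHalfPlane.coe_vadd]
        push_cast
        ring
      rw [h2]
      have h3 : (s : ℍ → ℂ) ((1 : ℝ) +ᵥ ((n : ℝ) +ᵥ w)) = s ((n : ℝ) +ᵥ w) :=
        hper.1 ((n : ℝ) +ᵥ w)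
      exact h3.trans (ih w)
  exact h1 M z

/-- **The `q`-expansion of a finite sum of slashes**, read in `z = q^{1/M}`. -/
theorem qExpand_qExpansion_eq_sum {N : ℕ} [NeZero N]
    (s'' : CuspForm ((Gamma0 N : Subgroup SL(2, ℤ)) : Subgroup (GL (Fin 2) ℝ)) 2)
    {ι : Type*} [Fintype ι] (r : ι → SL(2, ℤ))
    (hsum : ∀ z : ℍ, s'' z = ∑ i, ((f : ℍ → ℂ) ∣[(2 : ℤ)] (r i)⁻¹) z) :
    qExpand ℂ M (HahnSeries.ofPowerSeries ℤ ℂ (qExpansion 1 (s'' : ℍ → ℂ))) =
      ∑ i, zL M (fsl f (r i)) := by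
  classical
  have hper : (⟨s'', s''.holo'⟩ : HolFun) ∈ PerFun := form_mem_perFun s''
  have hmem : (⟨s'', s''.holo'⟩ : HolFun) ∈ cuspFnAlg M := form_mem_cuspFnAlg s''
  have h1 : zL M ⟨⟨s'', s''.holo'⟩, hmem⟩ =
      qExpand ℂ M (HahnSeries.ofPowerSeries ℤ ℂ (qExpansion 1 (s'' : ℍ → ℂ))) := by
    rw [zL_eq_qExpand M _ hper hmem]
    congr 1
    exact qLaurent_of_bdd _ (form_isBounded s'')
  rw [← h1, ← map_sum]
  congr 1
  apply Subtype.ext
  apply HolFun.ext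
  intro z
  have h2 : ∀ (t : Finset ι),
      ((((∑ i ∈ t, fsl f (r i) : cuspFnAlg M) : cuspFnAlg M) : HolFun) : ℍ → ℂ) z =
        ∑ i ∈ t, ((f : ℍ → ℂ) ∣[(2 : ℤ)] (r i)⁻¹) z := by
    intro t
    induction t using Finset.induction_on with
    | empty => simp
    | insert a t ha ih =>
      rw [Finset.sum_insert ha, Finset.sum_insert ha, ← ih]
      rfl
  rw [h2 Finset.univ]
  exact hsum z

/-- **The `q`-expansion of a trace**, in terms of the analytic embeddings of `hF` and `tF`. -/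
theorem qExpand_trace_eq {N : ℕ} [NeZero N]
    (s'' : CuspForm ((Gamma0 N : Subgroup SL(2, ℤ)) : Subgroup (GL (Fin 2) ℝ)) 2)
    {ι : Type*} [Fintype ι] (r : ι → SL(2, ℤ))
    (hsum : ∀ z : ℍ, s'' z = ∑ i, ((f : ℍ → ℂ) ∣[(2 : ℤ)] (r i)⁻¹) z) :
    qExpand ℂ M (HahnSeries.ofPowerSeries ℤ ℂ (qExpansion 1 (s'' : ℍ → ℂ))) =
      ∑ i, HahnSeries.C ((M : ℂ)⁻¹) *
        (HahnSeries.single (1 : ℤ) (1 : ℂ) *
          (tau M (r i) (A.hF f qf hqf) *
            Fermat.Agent.Lib.Residue.D (tau M (r i) A.tF))) := by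
  rw [qExpand_qExpansion_eq_sum f s'' r hsum]
  exact Finset.sum_congr rfl fun i _ => zL_fsl A f qf hqf (r i)

end Fermat.Agent.S40x.C2.Descent.TraceZ
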