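import Mathlib
import Fermat.Agent.Lib.Residue.Basic
import Fermat.Prelude.Def_ModularCurve_LaurentCoeff

set_option autoImplicit false

/-!
# P-S44 (C2, leaf DESC), part 3: transport of a differential identity between embeddings

`E` a field over `k`, `t, j ∈ E` related by `j * Q(t) = P(t)`; `φ, ψ : E → k((z))` two `k`-algebra
embeddings.  If `φ h * D (φ t) = φ y * D (φ j)` (i.e. `h dt = y dj` read through `φ`) then the same
identity holds through `ψ` (`transport_diff`).  Only the chain rule for polynomials is used.
-/

noncomputable section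

namespace Fermat.Agent.S40x.C2.Descent

open Polynomial Fermat.Agent.Lib.Residue

variable {k : Type*} [Field k] {E : Type*} [Field E] [Algebra k E]

/-- chain rule for polynomials on Laurent series. -/
theorem D_aeval (x : LaurentSeries k) (P : k[X]) :
    D (aeval x P) = aeval x (derivative P) * D x := by
  induction P using Polynomial.induction_on' with
  | add p q hp hq => rw [map_add, D_add, hp, hq, derivative_add, map_add, add_mul]
  | monomial n a =>
    have hC : ∀ c : k, D (algebraMap k (LaurentSeries k) c) = 0 := fun c => by
      rw [ModularCurve.algebraMap_laurentSeries_eq_single, ← HahnSeries.C_apply]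
      exact D_C c
    rw [derivative_monomial, aeval_monomial, aeval_monomial, D_mul, hC, zero_mul, zero_add]
    rcases n with _ | m
    · rw [pow_zero, D_one, mul_zero, Nat.cast_zero, mul_zero, map_zero, zero_mul, zero_mul]
    · rw [D_pow, Nat.add_sub_cancel, map_mul, map_natCast]
      ring

/-- differentiating the relation `j * Q(t) = P(t)` through an embedding. -/
theorem D_rel (χ : E →ₐ[k] LaurentSeries k) (P Q : k[X]) (t j : E)
    (hrel : j * aeval t Q = aeval t P) :
    D (χ j) * χ (aeval t Q) =
      χ (aeval t (derivative P) - j * aeval t (derivative Q)) * D (χ t) := by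
  have h1 : χ j * aeval (χ t) Q = aeval (χ t) P := by
    rw [Polynomial.aeval_algHom_apply, Polynomial.aeval_algHom_apply, ← map_mul, hrel]
  have h2 := congrArg D h1
  rw [D_mul, D_aeval, D_aeval] at h2
  rw [map_sub, map_mul, ← Polynomial.aeval_algHom_apply, ← Polynomial.aeval_algHom_apply,
    ← Polynomial.aeval_algHom_apply]
  linear_combination h2

/-- **transport of `h dt = y dj` between two embeddings.** -/
theorem transport_diff (φ ψ : E →ₐ[k] LaurentSeries k) (P Q : k[X]) (t j h y : E)
    (hrel : j * aeval t Q = aeval t P) (hQ : aeval t Q ≠ 0) (hDt : D (φ t) ≠ 0)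
    (hφ : φ h * D (φ t) = φ y * D (φ j)) :
    ψ h * D (ψ t) = ψ y * D (ψ j) := by
  set W : E := aeval t (derivative P) - j * aeval t (derivative Q) with hW
  have hE : h * aeval t Q = y * W := by
    apply φ.injective
    have h1 := D_rel φ P Q t j hrel
    rw [← hW] at h1
    apply mul_right_cancel₀ hDt
    rw [map_mul, map_mul]
    linear_combination (φ (aeval t Q)) * hφ + (φ y) * h1
  have h2 := D_rel ψ P Q t j hrel
  rw [← hW] at h2
  have hψQ : ψ (aeval t Q) ≠ 0 := fun h0 => hQ (ψ.injective (h0.trans (map_zero ψ).symm))
  apply mul_right_cancel₀ hψQ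
  have h3 := congrArg ψ hE
  rw [map_mul, map_mul] at h3
  linear_combination (D (ψ t)) * h3 - (ψ y) * h2

end Fermat.Agent.S40x.C2.Descent

end
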