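import Mathlib
import Fermat.Prelude.Thm_CongruenceSubgroup_one_mem_strictPeriods_Gamma0
import Fermat.Agent.S40x.C2.Omega4
import Fermat.Agent.Gateway.GoodRed.TLineHurwitz
import Fermat.Agent.S40x.C2.Descent.TauStd
import Fermat.Agent.S40x.C2.Descent.TraceExp
import Fermat.Agent.S40x.C2.Descent.TraceZ
import Fermat.Agent.S40x.C2.Descent.TransportDiff

set_option autoImplicit false

/-!
# P-S44 (C2, leaf DESC): descent of the level of a mod `ℓ` differential

`exists_cuspForm_of_descends`: let `M' ∣ Mh`, `4 ∣ Mh`, `ℓ ∤ Mh`, `ℓ ∤ [Γ₀(M') : Γ₀(Mh)]`.  If `s` is a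
weight two cusp form of level `Mh` with `A`-integral `q`-expansion `qs` whose reduction is
`y0 * θ(j)` with `y0` in the function field `Fk k M'` of the lower level, then there is a cusp form
`s'` of level `M'` with `A`-integral `q`-expansion and the same reduction.

Proof: `s'' := Tr s = ∑_r s ∣[2] γ_r⁻¹` (`γ_r ∈ Γ₀(M')`), and every term has an `A`-integral
`z`-expansion (`z = q^(1/Mh)`) whose reduction is `g(z^Mh)`, `g = red qs`.
-/

set_option linter.unusedSectionVars false
set_option linter.style.haveILetI false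

noncomputable section

namespace Fermat.Agent.S40x.C2.Descent

open Polynomial ModularCurve Fermat.Agent.S28 Fermat.Agent.S28.Tower Fermat.Agent.Gateway.Red
open Fermat.Agent.Lib.Residue
open IntermediateField HahnSeries AlgebraicCurve CongruenceSubgroup Fermat.Agent.S24.Setup
open Fermat.Agent.Gateway.AuxLevel Fermat.Agent.Gateway.GoodRed
open Fermat.Agent.Gateway.GoodRed.ConjFamily UpperHalfPlane
open scoped MatrixGroups

/-! ### Generalities on Laurent series -/

section Laurent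

variable {R : Type*} [CommRing R]

/-- `z d/dz (f(z^N)) = N (q df/dq)(z^N)`. -/
theorem single_mul_D_qExpand (N : ℕ) [NeZero N] (f : LaurentSeries R) :
    HahnSeries.single (1 : ℤ) (1 : R) * D (qExpand R N f) =
      HahnSeries.C (N : R) * qExpand R N (HahnSeries.single (1 : ℤ) (1 : R) * D f) := by
  ext n
  rw [coeff_single_mul', one_mul, D_coeff, HahnSeries.C_mul_eq_smul, HahnSeries.coeff_smul,
    smul_eq_mul, sub_add_cancel]
  by_cases hn : (N : ℤ) ∣ n
  · obtain ⟨m, rfl⟩ := hn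
    rw [qExpand_coeff_mul, qExpand_coeff_mul, coeff_single_mul', one_mul, D_coeff, sub_add_cancel]
    push_cast
    ring
  · rw [qExpand_coeff_of_not_dvd N _ hn, qExpand_coeff_of_not_dvd N _ hn, mul_zero, mul_zero]

end Laurent

/-! ### Units of `A` -/

section Units

variable (A : ValuationSubring Kbar) {k : Type*} [Field k] (π : A →+* k)
  (hπ : Function.Surjective π)

include hπ in
theorem isUnit_of_map_ne_zero {x : A} (hx : π x ≠ 0) : IsUnit x := by
  by_contra hu
  apply hx
  have hmax : (RingHom.ker π).IsMaximal := RingHom.ker_isMaximal_of_surjective π hπ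
  have h1 : RingHom.ker π = IsLocalRing.maximalIdeal A := IsLocalRing.eq_maximalIdeal hmax
  have h2 : x ∈ IsLocalRing.maximalIdeal A := (IsLocalRing.mem_maximalIdeal x).mpr hu
  rw [← h1] at h2
  exact (RingHom.mem_ker).mp h2

include hπ in
/-- a natural number which is nonzero in `k` is invertible in `A`. -/
theorem exists_natCast_inv (n : ℕ) (hn : (n : k) ≠ 0) : ∃ u : A, u * (n : A) = 1 := by
  have h : IsUnit ((n : ℕ) : A) := isUnit_of_map_ne_zero A π hπ (by rwa [map_natCast])
  obtain ⟨v, hv⟩ := h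
  exact ⟨↑v⁻¹, by rw [← hv, Units.inv_mul]⟩

end Units

/-! ### Cusp embeddings which are standard on a subfield -/

section StdSub

variable {k : Type} [Field k] {M' Mh : ℕ} [NeZero M'] [NeZero Mh] (hM : M' ∣ Mh)

/-- a cusp embedding of `Fk k Mh` which is standard on the generators `j(q^d)`, `d ∣ M'`, is
standard on the whole subfield `Fk k M'`. -/
theorem emb_std_on_sub (τ : Emb k Mh)
    (hτ : ∀ d (hd : d ∣ M'), τ.1 (jdF d (hd.trans hM)) = jS k 1 (Mh * d))
    (y : LaurentSeries k) (hy : y ∈ Fk k M') :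
    τ.1 ⟨y, full_degeneracyC_le k hM hy⟩ = qExpand k Mh y := by
  have key : ∀ y (hy : y ∈ IntermediateField.adjoin k (divisorExpansionsC k M')),
      τ.1 ⟨y, full_degeneracyC_le k hM hy⟩ = qExpand k Mh y := by
    intro y hy
    induction hy using IntermediateField.adjoin_induction with
    | mem y hy =>
      obtain ⟨d, hd0, hd, rfl⟩ := hy
      have e : (⟨qExpand k d (jqModC k),
          full_degeneracyC_le k hM (IntermediateField.subset_adjoin k _ ⟨d, hd0, hd, rfl⟩)⟩ :
          Fk k Mh) = jdF d (hd.trans hM) :=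
        Subtype.ext (by rw [coe_jdF, jS_eq_qExpand])
      rw [e, hτ d hd, ← qExpand_qExpand_jqModC]
    | algebraMap c =>
      have e : (⟨algebraMap k (LaurentSeries k) c,
          full_degeneracyC_le k hM (IntermediateField.algebraMap_mem _ c)⟩ : Fk k Mh) =
          algebraMap k (Fk k Mh) c := rfl
      rw [e, emb_algebraMap, algebraMap_laurentSeries_eq_single, ← HahnSeries.C_apply, qExpand_C]
    | add x y hx hy h1 h2 =>
      have e : (⟨x + y, full_degeneracyC_le k hM (add_mem hx hy)⟩ : Fk k Mh) =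
          ⟨x, full_degeneracyC_le k hM hx⟩ + ⟨y, full_degeneracyC_le k hM hy⟩ := rfl
      rw [e, map_add, map_add, h1, h2]
    | inv x hx h1 =>
      have e : (⟨x⁻¹, full_degeneracyC_le k hM (inv_mem hx)⟩ : Fk k Mh) =
          (⟨x, full_degeneracyC_le k hM hx⟩)⁻¹ := rfl
      rw [e, map_inv₀, map_inv₀, h1]
    | mul x y hx hy h1 h2 =>
      have e : (⟨x * y, full_degeneracyC_le k hM (mul_mem hx hy)⟩ : Fk k Mh) =
          ⟨x, full_degeneracyC_le k hM hx⟩ * ⟨y, full_degeneracyC_le k hM hy⟩ := rfl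
      rw [e, map_mul, map_mul, h1, h2]
  exact key y hy

end StdSub

/-! ### The cusp embeddings attached to `γ ∈ Γ₀(M')` -/

section Core

variable (ℓ : ℕ) [Fact ℓ.Prime] (A : ValuationSubring Kbar)
  {k : Type} [Field k] [IsAlgClosed k] [CharP k ℓ] (π : A →+* k)
  (hπ : Function.Surjective π)
  {M' Mh : ℕ} [NeZero M'] [NeZero Mh] (hM : M' ∣ Mh) (hℓM : ¬ ℓ ∣ Mh)

/-- a cusp embedding as a `k`-algebra hom. -/
def embAlgHom {k : Type} [Field k] {N : ℕ} [NeZero N] (τ : Emb k N) :
    Fk k N →ₐ[k] LaurentSeries k :=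
  { τ.1 with
    commutes' := fun c => by
      show τ.1 (algebraMap k (Fk k N) c) = algebraMap k (LaurentSeries k) c
      rw [emb_algebraMap, algebraMap_laurentSeries_eq_single, HahnSeries.C_apply] }

theorem embAlgHom_apply {k : Type} [Field k] {N : ℕ} [NeZero N] (τ : Emb k N) (x : Fk k N) :
    embAlgHom τ x = τ.1 x := rfl

/-- **(G1)** the cusp embedding `σ` over `Kbar` attached to `γ ∈ Γ₀(M')` is standard on the
generators `j(q^d)`, `d ∣ M'`. -/
theorem emb_jdF_of_tau (σ : Emb Kbar Mh) {γ : SL(2, ℤ)} (hγ : γ ∈ Gamma0 M')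
    (hσ : (coeffMap iota).comp (embF σ) = Forms.tau Mh γ) (d : ℕ) (hd : d ∣ M') :
    σ.1 (jdF d (hd.trans hM)) = jS Kbar 1 (Mh * d) := by
  haveI : NeZero d := ⟨ne_zero_of_dvd_N (hd.trans hM)⟩
  have h1 := tau_gen_of_mem_Gamma0 hM hγ hd
  rw [← hσ, RingHom.comp_apply, ← ModularCurve.coeffMap_qExpand] at h1
  have h2 : embF σ (gen Mh (hd.trans hM)) = qExpand Kbar Mh (jK d) :=
    (coeffMap iota).injective h1
  have h3 : toFullC Kbar Mh (gen Mh (hd.trans hM)) = jdF d (hd.trans hM) := by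
    apply Subtype.ext
    rw [coe_toFullC, coe_gen, coe_jdF, jK_eq, jS_eq_qExpand]
  rw [embF_apply, h3, jK_eq, qExpand_qExpand_jqModC] at h2
  exact h2

include hπ hℓM in
/-- **(G2)** its reduction is standard on the subfield `Fk k M'` of `Fk k Mh`. -/
theorem redEmb_std (σ : Emb Kbar Mh) {γ : SL(2, ℤ)} (hγ : γ ∈ Gamma0 M')
    (hσ : (coeffMap iota).comp (embF σ) = Forms.tau Mh γ)
    (y : LaurentSeries k) (hy : y ∈ Fk k M') :
    (redEmb A π Mh ℓ hπ hℓM σ).1 ⟨y, full_degeneracyC_le k hM hy⟩ = qExpand k Mh y := by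
  refine emb_std_on_sub hM _ ?_ y hy
  intro d hd
  have h := redEmb_jdF ℓ hπ hℓM σ (hd.trans hM) (1 : Aˣ) (Mh * d)
    (by rw [map_one]; exact emb_jdF_of_tau hM σ hγ hσ d hd)
  rwa [map_one] at h

end Core

/-! ### The termwise reduction -/

section Term

variable (ℓ : ℕ) [Fact ℓ.Prime] (A : ValuationSubring Kbar)
  {k : Type} [Field k] [IsAlgClosed k] [CharP k ℓ] (π : A →+* k)
  (hπ : Function.Surjective π)
  {M' Mh : ℕ} [NeZero M'] [NeZero Mh] (hM : M' ∣ Mh) (hℓM : ¬ ℓ ∣ Mh)

attribute [local instance] algebraRF algebraPolyF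

include hπ hℓM in
/-- an element of `F` whose `q`-expansion is `A`-integral lies in `OvVal`. -/
theorem mem_OvVal_of_embA {f : FBar Kbar Mh} {a : LaurentSeries A}
    (hf : (f : LaurentSeries Kbar) = embA A a) : f ∈ OvVal A π Mh ℓ hπ hℓM := by
  rw [mem_OvVal_iff, mem_Ov_iff, hf]
  exact embA_mem_gaussRing A π _

/-- ... and reduces coefficientwise. -/
theorem coe_resFk_of_embA {f : FBar Kbar Mh} {a : LaurentSeries A}
    (hf : (f : LaurentSeries Kbar) = embA A a) :
    ((resFk A π Mh ℓ hπ hℓM ⟨f, mem_OvVal_of_embA ℓ A π hπ hℓM hf⟩ :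
      modularFunctionFieldFullC k Mh) : LaurentSeries k) = redA A π a := by
  rw [coe_resFk, redV_of_eq_embA A π (FBar Kbar Mh) _ (a := a)]
  exact hf

include hπ hM hℓM in
/-- **(D4)** the reduction of one term of the trace. -/
theorem term_red (h4 : 4 ∣ Mh) (σ : Emb Kbar Mh) {γ : SL(2, ℤ)} (hγ : γ ∈ Gamma0 M')
    (hσ : (coeffMap iota).comp (embF σ) = Forms.tau Mh γ)
    (hFK : FBar Kbar Mh) (aF : LaurentSeries A) (haF : (hFK : LaurentSeries Kbar) = embA A aF)
    (hFint : IsIntegral (Algebra.adjoin Kbar {jF Kbar Mh}) hFK)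
    (y0 : LaurentSeries k) (hy0 : y0 ∈ Fk k M')
    (hred : redA A π aF * (HahnSeries.single (1 : ℤ) (1 : k) * D (TLine4.x4k k)) =
      y0 * (HahnSeries.single (1 : ℤ) (1 : k) * D (jqModC k))) :
    ∃ c : LaurentSeries A,
      embA A c = HahnSeries.C ((Mh : Kbar)⁻¹) * (HahnSeries.single (1 : ℤ) (1 : Kbar) *
        (embF σ hFK * D (embF σ (⟨L4.x4K, L4.x4K_mem_of_dvd h4⟩ : FBar Kbar Mh)))) ∧
      redA A π c =
        qExpand k Mh (y0 * (HahnSeries.single (1 : ℤ) (1 : k) * D (jqModC k))) := by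
  classical
  have hNk : ((Mh : ℕ) : k) ≠ 0 := natCast_ne_zero_final ℓ hℓM
  set tL : FBar Kbar Mh := ⟨L4.x4K, L4.x4K_mem_of_dvd h4⟩ with htL
  have htLcoe : (tL : LaurentSeries Kbar) = coeffMap (Int.castRingHom Kbar) L4.x4 := rfl
  have htLint : IsIntegral (Algebra.adjoin Kbar {jF Kbar Mh}) tL := by
    have := Forms.isIntegral_bar_of_rel Mh L4.x4K (L4.x4K_mem_of_dvd h4) L4.P4 L4.Q4 Forms.monic_P4
      (Polynomial.degree_lt_degree (by rw [L4.natDegree_P4, L4.natDegree_Q4]; norm_num))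
      L4.rel_x4K.symm
    rwa [jF_setup_eq] at this
  -- the elements of `OvVal` and their reductions
  have hFO := mem_OvVal_of_embA ℓ A π hπ hℓM haF
  have htO : tL ∈ OvVal A π Mh ℓ hπ hℓM := intElt_mem_OvVal π ℓ hπ hℓM htLcoe
  set hk : Fk k Mh := resFk A π Mh ℓ hπ hℓM ⟨hFK, hFO⟩ with hhk
  set t0 : Fk k Mh := resFk A π Mh ℓ hπ hℓM ⟨tL, htO⟩ with ht0
  have hkcoe : (hk : LaurentSeries k) = redA A π aF := coe_resFk_of_embA ℓ A π hπ hℓM haF
  have ht0coe : (t0 : LaurentSeries k) = TLine4.x4k k := coe_resFk_intElt π ℓ hπ hℓM htLcoe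
  -- integrality of the expansions at the cusp `σ`
  have hjcoe : ((jF Kbar Mh : FBar Kbar Mh) : LaurentSeries Kbar) = jqModC Kbar := rfl
  obtain ⟨a, ha⟩ := embF_mem_intLS A π Mh ℓ hπ hℓM
    ((isIntegral_polyF_iff (jF Kbar Mh) hjcoe hFK).mpr hFint) hFO σ
  obtain ⟨b, hb⟩ := embF_mem_intLS A π Mh ℓ hπ hℓM
    ((isIntegral_polyF_iff (jF Kbar Mh) hjcoe tL).mpr htLint) htO σ
  set τ := redEmb A π Mh ℓ hπ hℓM σ with hτ
  have h1 : τ.1 hk = redA A π a := redEmb_of_eq_embA ℓ hπ hℓM σ ⟨hFK, hFO⟩ ha.symm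
  have h2 : τ.1 t0 = redA A π b := redEmb_of_eq_embA ℓ hπ hℓM σ ⟨tL, htO⟩ hb.symm
  -- the inverse of `Mh` in `A`
  obtain ⟨u, hu⟩ := exists_natCast_inv A π hπ Mh hNk
  have huK : ((u : A) : Kbar) = ((Mh : ℕ) : Kbar)⁻¹ := by
    have h := congrArg (A.subtype) hu
    rw [map_mul, map_natCast, map_one] at h
    exact eq_inv_of_mul_eq_one_left h
  have huk : π u = ((Mh : ℕ) : k)⁻¹ := by
    have h := congrArg π hu
    rw [map_mul, map_natCast, map_one] at h
    exact eq_inv_of_mul_eq_one_left h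
  refine ⟨HahnSeries.C u * (HahnSeries.single (1 : ℤ) (1 : A) * (a * D b)), ?_, ?_⟩
  · rw [map_mul, map_mul, map_mul, ha, embA, ← D_coeffMap]
    have e1 : coeffMap A.subtype (HahnSeries.C u) = HahnSeries.C ((Mh : Kbar)⁻¹) := by
      rw [HahnSeries.C_apply, coeffMap_single, HahnSeries.C_apply]
      exact congrArg _ huK
    have e2 : coeffMap A.subtype (HahnSeries.single (1 : ℤ) (1 : A)) =
        HahnSeries.single (1 : ℤ) (1 : Kbar) := by
      rw [coeffMap_single, map_one]
    have e3 : coeffMap A.subtype b = embF σ tL := hb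
    rw [e1, e2, e3]
  · -- the transport of `h dt = y dj`
    have hy0' : y0 ∈ Fk k Mh := full_degeneracyC_le k hM hy0
    set y0F : Fk k Mh := ⟨y0, hy0'⟩ with hy0F
    have hsingle : HahnSeries.single (-1 : ℤ) (1 : k) * HahnSeries.single (1 : ℤ) (1 : k) =
        (1 : LaurentSeries k) := by
      rw [HahnSeries.single_mul_single]
      simp
    have hred' : redA A π aF * D (TLine4.x4k k) = y0 * D (jqModC k) := by
      have h : HahnSeries.single (-1 : ℤ) (1 : k) *
          (redA A π aF * (HahnSeries.single (1 : ℤ) (1 : k) * D (TLine4.x4k k))) =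
          HahnSeries.single (-1 : ℤ) (1 : k) *
            (y0 * (HahnSeries.single (1 : ℤ) (1 : k) * D (jqModC k))) := by rw [hred]
      calc redA A π aF * D (TLine4.x4k k)
          = (HahnSeries.single (-1 : ℤ) (1 : k) * HahnSeries.single (1 : ℤ) (1 : k)) *
              (redA A π aF * D (TLine4.x4k k)) := by rw [hsingle, one_mul]
        _ = HahnSeries.single (-1 : ℤ) (1 : k) *
              (redA A π aF * (HahnSeries.single (1 : ℤ) (1 : k) * D (TLine4.x4k k))) := by ring
        _ = HahnSeries.single (-1 : ℤ) (1 : k) *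
              (y0 * (HahnSeries.single (1 : ℤ) (1 : k) * D (jqModC k))) := h
        _ = (HahnSeries.single (-1 : ℤ) (1 : k) * HahnSeries.single (1 : ℤ) (1 : k)) *
              (y0 * D (jqModC k)) := by ring
        _ = y0 * D (jqModC k) := by rw [hsingle, one_mul]
    have htr : Transcendental k t0 := TLineHurwitz.transcendental_t4 Mh t0 ht0coe
    have hQ : aeval t0 (TLine4.JQ k) ≠ 0 := fun h0 =>
      TLine4.JQ_ne_zero ((transcendental_iff.mp htr) _ h0)
    have hDt : D ((Fk k Mh).val t0) ≠ 0 := by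
      show D (t0 : LaurentSeries k) ≠ 0
      rw [ht0coe]
      intro h0
      have hu4 := L4.isUnit_leadingCoeff_x4
      have hU : IsUnit (HahnSeries.single (1 : ℤ) (1 : ℤ) * D L4.x4) :=
        HahnSeries.isUnit_iff.mpr hu4
      have hUk := hU.map (coeffMap (Int.castRingHom k))
      rw [map_mul, ← D_coeffMap] at hUk
      have : D (TLine4.x4k k) = D (coeffMap (Int.castRingHom k) L4.x4) := rfl
      rw [← this, h0, mul_zero] at hUk
      exact not_isUnit_zero hUk
    have hφ : (Fk k Mh).val hk * D ((Fk k Mh).val t0) =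
        (Fk k Mh).val y0F * D ((Fk k Mh).val (jFk k Mh)) := by
      show (hk : LaurentSeries k) * D (t0 : LaurentSeries k) = y0 * D (jqModC k)
      rw [hkcoe, ht0coe]
      exact hred'
    have key := transport_diff (Fk k Mh).val (embAlgHom τ) (TLine4.JP k) (TLine4.JQ k) t0
      (jFk k Mh) hk y0F (TLineHurwitz.rel_t4 Mh t0 ht0coe) hQ hDt hφ
    rw [embAlgHom_apply, embAlgHom_apply, embAlgHom_apply, embAlgHom_apply, h1, h2, emb_jFk,
      redEmb_std ℓ A π hπ hM hℓM σ hγ hσ y0 hy0] at key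
    -- conclusion
    rw [map_mul, map_mul, map_mul, redA, ← D_coeffMap]
    have e1 : coeffMap π (HahnSeries.C u) = HahnSeries.C (((Mh : ℕ) : k)⁻¹) := by
      rw [HahnSeries.C_apply, coeffMap_single, HahnSeries.C_apply]
      exact congrArg _ huk
    have e2 : coeffMap π (HahnSeries.single (1 : ℤ) (1 : A)) =
        HahnSeries.single (1 : ℤ) (1 : k) := by
      rw [coeffMap_single, map_one]
    rw [e1, e2]
    have key' : coeffMap π a * D (coeffMap π b) =
        qExpand k Mh y0 * D (qExpand k Mh (jqModC k)) := key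
    rw [key', map_mul]
    have e3 := single_mul_D_qExpand Mh (jqModC k)
    have e4 : HahnSeries.C (((Mh : ℕ) : k)⁻¹) * HahnSeries.C ((Mh : ℕ) : k) =
        (1 : LaurentSeries k) := by
      rw [← map_mul, inv_mul_cancel₀ hNk, map_one]
    calc HahnSeries.C (((Mh : ℕ) : k)⁻¹) * (HahnSeries.single (1 : ℤ) (1 : k) *
          (qExpand k Mh y0 * D (qExpand k Mh (jqModC k))))
        = HahnSeries.C (((Mh : ℕ) : k)⁻¹) * (qExpand k Mh y0 *
            (HahnSeries.single (1 : ℤ) (1 : k) * D (qExpand k Mh (jqModC k)))) := by ring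
      _ = (HahnSeries.C (((Mh : ℕ) : k)⁻¹) * HahnSeries.C ((Mh : ℕ) : k)) *
            (qExpand k Mh y0 *
              qExpand k Mh (HahnSeries.single (1 : ℤ) (1 : k) * D (jqModC k))) := by
          rw [e3]; ring
      _ = _ := by rw [e4, one_mul]

end Term

/-! ### The main theorem -/

section Main

variable (ℓ : ℕ) [Fact ℓ.Prime] (A : ValuationSubring Kbar)
  {k : Type} [Field k] [IsAlgClosed k] [CharP k ℓ] (π : A →+* k)
  (hπ : Function.Surjective π)

/-- the embedding `A → ℂ`. -/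
def iotaA : A →+* ℂ := iota.comp A.subtype

theorem coeffMap_iota_embA (x : LaurentSeries A) :
    coeffMap iota (embA A x) = coeffMap (iotaA A) x := by
  rw [embA, coeffMap_coeffMap]
  rfl

/-- the integral quotient `qs / (q dx₄/dq)`. -/
theorem exists_int_quotient {Mh : ℕ} [NeZero Mh] (h4 : 4 ∣ Mh) (qs : PowerSeries A) :
    ∃ aF : LaurentSeries A,
      Forms.hq (Forms.formsData4 Mh h4).tq (qs.map A.subtype) = embA A aF ∧
      redA A π aF * (HahnSeries.single (1 : ℤ) (1 : k) * D (TLine4.x4k k)) =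
        HahnSeries.ofPowerSeries ℤ k (qs.map π) := by
  set AD := Forms.formsData4 Mh h4 with hAD
  have htq : AD.tq = coeffMap (Int.castRingHom Kbar) L4.x4 := Forms.formsData4_tq' Mh h4
  have hU : IsUnit (HahnSeries.single (1 : ℤ) (1 : ℤ) * D L4.x4) :=
    HahnSeries.isUnit_iff.mpr L4.isUnit_leadingCoeff_x4
  obtain ⟨uZ, huZ⟩ := hU
  have hvG : (↑uZ⁻¹ : LaurentSeries ℤ) * (HahnSeries.single (1 : ℤ) (1 : ℤ) * D L4.x4) = 1 := by
    rw [← huZ, Units.inv_mul]
  refine ⟨HahnSeries.ofPowerSeries ℤ A qs * intA A (↑uZ⁻¹ : LaurentSeries ℤ), ?_, ?_⟩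
  · have hG : coeffMap (Int.castRingHom Kbar)
        (HahnSeries.single (1 : ℤ) (1 : ℤ) * D L4.x4) = Forms.Gq AD.tq := by
      rw [Forms.Gq, htq, map_mul, coeffMap_single, map_one, Forms.coeffMap_D]
    rw [Forms.hq, div_eq_iff AD.Gq_ne_zero, map_mul, embA_intA, ← hG, mul_assoc, ← map_mul, hvG,
      map_one, mul_one, embA, coeffMap_ofPowerSeries]
  · have hGk : HahnSeries.single (1 : ℤ) (1 : k) * D (TLine4.x4k k) =
        coeffMap (Int.castRingHom k) (HahnSeries.single (1 : ℤ) (1 : ℤ) * D L4.x4) := by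
      rw [map_mul, coeffMap_single, ← D_coeffMap, eq_intCast, Int.cast_one]
      rfl
    rw [map_mul, redA_intA, hGk, mul_assoc, ← map_mul, hvG, map_one, mul_one, redA,
      coeffMap_ofPowerSeries]

include hπ in
/-- **DESC.**  A weight two cusp form of level `Mh` with `A`-integral `q`-expansion whose
reduction is a differential `y0 * θ(j)` of the lower special fibre (`y0 ∈ Fk k M'`) can be replaced
by a cusp form of level `M'` with `A`-integral `q`-expansion and the same reduction. -/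
theorem exists_cuspForm_of_descends {M' Mh : ℕ} [NeZero M'] [NeZero Mh] (hM : M' ∣ Mh)
    (h4 : 4 ∣ Mh) (hℓM : ¬ ℓ ∣ Mh)
    (hidx : ¬ ℓ ∣ (Gamma0 Mh).relIndex (Gamma0 M'))
    (s : CuspForm (Gamma0 Mh) 2) (qs : PowerSeries A)
    (hqs : qExpansion 1 s = qs.map (iotaA A))
    (y0 : LaurentSeries k) (hy0 : y0 ∈ Fk k M')
    (hred : HahnSeries.ofPowerSeries ℤ k (qs.map π) =
      y0 * (HahnSeries.single (1 : ℤ) (1 : k) * D (jqModC k))) :
    ∃ (s' : CuspForm (Gamma0 M') 2) (qs' : PowerSeries A),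
      qExpansion 1 s' = qs'.map (iotaA A) ∧ qs'.map π = qs.map π := by
  classical
  set AD := Forms.formsData4 Mh h4 with hAD
  -- the function `hF = qs / (q dx₄/dq)` of level `Mh`
  have hqsK : qExpansion 1 (s : ℍ → ℂ) = (qs.map A.subtype).map iota := by
    rw [hqs]
    ext n
    simp only [PowerSeries.coeff_map]
    rfl
  set hF : FBar Kbar Mh := AD.hF s (qs.map A.subtype) hqsK with hhF
  obtain ⟨aF, haF, hredA⟩ := exists_int_quotient A π h4 qs
  have hFcoe : (hF : LaurentSeries Kbar) = embA A aF := haF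
  have hFint : IsIntegral (Algebra.adjoin Kbar {jF Kbar Mh}) hF := by
    have := AD.hF_isIntegral s (qs.map A.subtype) hqsK
    rwa [jF_setup_eq] at this
  have htF : AD.tF = (⟨L4.x4K, L4.x4K_mem_of_dvd h4⟩ : FBar Kbar Mh) := Forms.formsData4_tF Mh h4
  -- the representatives and their cusp embeddings
  obtain ⟨R, hRfin, γ, hγ, hcard, htr⟩ := exists_reps Mh M'
  choose σ hσ using fun r => exists_emb_eq_tau Mh (γ r)
  have hterm := fun r => term_red ℓ A π hπ hM hℓM h4 (σ r) (hγ r) (hσ r) hF aF hFcoe hFint y0 hy0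
    (hredA.trans hred)
  choose c hc1 hc2 using hterm
  set s2 := traceForm M' s with hs2
  set cs : LaurentSeries A := ∑ r, c r with hcs
  -- the expansion of the trace
  have hexp : qExpand ℂ Mh (HahnSeries.ofPowerSeries ℤ ℂ (qExpansion 1 (s2 : ℍ → ℂ))) =
      coeffMap (iotaA A) cs := by
    rw [TraceZ.qExpand_trace_eq AD s (qs.map A.subtype) hqsK s2 γ (htr s), hcs, map_sum]
    refine Finset.sum_congr rfl fun r _ => ?_
    rw [← coeffMap_iota_embA, hc1 r, map_mul, map_mul, map_mul, Forms.coeffMap_D, htF]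
    have e1 : coeffMap iota (HahnSeries.C (((Mh : ℕ) : Kbar)⁻¹)) =
        HahnSeries.C (((Mh : ℕ) : ℂ)⁻¹) := by
      rw [HahnSeries.C_apply, coeffMap_single, HahnSeries.C_apply, map_inv₀, map_natCast]
    have e2 : coeffMap iota (HahnSeries.single (1 : ℤ) (1 : Kbar)) =
        HahnSeries.single (1 : ℤ) (1 : ℂ) := by
      rw [coeffMap_single, map_one]
    have e3 : ∀ x : FBar Kbar Mh, coeffMap iota (embF (σ r) x) = Forms.tau Mh (γ r) x := by
      intro x
      rw [← hσ r]
      rfl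
    rw [e1, e2, e3, e3]
  -- the `q`-expansion of the trace
  set qs2 : PowerSeries A := PowerSeries.mk fun n => cs.coeff ((Mh : ℤ) * n) with hqs2
  have hq2 : qExpansion 1 (s2 : ℍ → ℂ) = qs2.map (iotaA A) := by
    ext n
    have h1 := congrArg (fun x : LaurentSeries ℂ => x.coeff ((Mh : ℤ) * n)) hexp
    simp only [qExpand_coeff_mul, coeffMap_coeff, HahnSeries.ofPowerSeries_apply_coeff] at h1
    rw [h1, PowerSeries.coeff_map, hqs2, PowerSeries.coeff_mk]
  have hr2 : qs2.map π = (Fintype.card R : k) • qs.map π := by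
    ext n
    rw [PowerSeries.coeff_map, hqs2, PowerSeries.coeff_mk, ← redA_coeff A π, hcs, map_sum,
      HahnSeries.coeff_sum]
    have h1 : ∀ r ∈ Finset.univ, (redA A π (c r)).coeff ((Mh : ℤ) * n) =
        PowerSeries.coeff n (qs.map π) := by
      intro r _
      rw [hc2 r, ← hred, qExpand_coeff_mul, HahnSeries.ofPowerSeries_apply_coeff]
    rw [Finset.sum_congr rfl h1, Finset.sum_const, Finset.card_univ, PowerSeries.coeff_smul,
      nsmul_eq_mul, smul_eq_mul]
  -- division by the index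
  have hRk : ((Fintype.card R : ℕ) : k) ≠ 0 := by
    rw [hcard, Ne, CharP.cast_eq_zero_iff k ℓ]
    exact hidx
  obtain ⟨u, hu⟩ := exists_natCast_inv A π hπ (Fintype.card R) hRk
  have huk : π u * ((Fintype.card R : ℕ) : k) = 1 := by
    have h := congrArg π hu
    rwa [map_mul, map_natCast, map_one] at h
  refine ⟨iotaA A u • s2, PowerSeries.C u * qs2, ?_, ?_⟩
  · have h1 : (⇑(iotaA A u • s2) : ℍ → ℂ) = iotaA A u • (⇑s2 : ℍ → ℂ) := by
      ext z
      simp
    rw [h1, ModularForm.qExpansion_smul one_pos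
      (CongruenceSubgroup.one_mem_strictPeriods_Gamma0 M') (iotaA A u) s2, hq2]
    ext n
    rw [PowerSeries.coeff_smul, PowerSeries.coeff_map, PowerSeries.coeff_map,
      PowerSeries.coeff_C_mul, map_mul, smul_eq_mul]
  · rw [map_mul, PowerSeries.map_C, hr2]
    ext n
    rw [PowerSeries.coeff_C_mul, PowerSeries.coeff_smul, smul_eq_mul, ← mul_assoc, huk, one_mul]

end Main

end Fermat.Agent.S40x.C2.Descent

end
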