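import Mathlib
import Fermat.Agent.S40x.C2.Descent.TauStd

/-!
# P-S44 (block C2, route OMEGA), leaf DESC, piece (D4b): the reduced cusp embeddings over the
standard embedding of the lower level

`M' ∣ Mh`, `ℓ ∤ Mh`.  Let `σ : ConjFamily.Emb Kbar Mh` be a cusp embedding whose base change to `ℂ`
is the analytic embedding `tau Mh γ` of some `γ ∈ Γ₀(M')` (`TauStd.exists_emb_eq_tau`).  Then

* `embF_incl_of_tau` : `σ` is the standard expansion `Y ↦ Y(z^Mh)` on `F_{M'} ⊆ F_{Mh}`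
  (`TauStd.tau_incl_of_mem_Gamma0` + injectivity of `coeffMap iota`);
* `emb_jdF_of_tau` : in particular `σ (j(dz)) = jS Kbar 1 (Mh * d)` for `d ∣ M'`;
* `redEmb_std` : the reduction `σ̄ = redEmb σ : Fk k Mh → k((z))` is the standard expansion
  `y ↦ y(z^Mh)` on every `y ∈ Fk k Mh` whose `q`-series lies in `Fk k M'` (only the generators
  `j(dz)`, `d ∣ M'`, are needed: `RedEmb.redEmb_jdF` with `ζ = 1`).
-/

set_option autoImplicit false
set_option linter.unusedSectionVars false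
set_option linter.style.haveILetI false

noncomputable section

namespace Fermat.Agent.S40x.C2.Descent.SbarStd

open Polynomial ModularCurve Fermat.Agent.S28 Fermat.Agent.S28.Tower Fermat.Agent.Gateway.Red
open IntermediateField HahnSeries CongruenceSubgroup Fermat.Agent.S24 Fermat.Agent.S24.Setup
open Fermat.Agent.Gateway.GoodRed Fermat.Agent.Gateway.GoodRed.Forms
open Fermat.Agent.S40x.C2.Descent
open scoped MatrixGroups

variable {M' Mh : ℕ} [NeZero M'] [NeZero Mh] (hM : M' ∣ Mh)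

/-- `coeffMap iota` is injective. -/
theorem coeffMap_iota_injective : Function.Injective (coeffMap (iota : Kbar →+* ℂ)) :=
  (coeffMap iota).injective

/-- **a cusp embedding over `tau Mh γ`, `γ ∈ Γ₀(M')`, is standard on `F_{M'}`.** -/
theorem embF_incl_of_tau (σ : ConjFamily.Emb Kbar Mh) {γ : SL(2, ℤ)} (hγ : γ ∈ Gamma0 M')
    (hσ : (coeffMap iota).comp (embF σ) = tau Mh γ) (Y : FF M') :
    embF σ (inclFF hM Y) = qExpand Kbar Mh (Y : LaurentSeries Kbar) := by
  apply coeffMap_iota_injective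
  have h1 := DFunLike.congr_fun hσ (inclFF hM Y)
  rw [RingHom.comp_apply] at h1
  rw [h1, tau_incl_of_mem_Gamma0 hM hγ Y, ModularCurve.coeffMap_qExpand]

/-- the value on the generators `j(dz)`, `d ∣ M'`. -/
theorem emb_jdF_of_tau (σ : ConjFamily.Emb Kbar Mh) {γ : SL(2, ℤ)} (hγ : γ ∈ Gamma0 M')
    (hσ : (coeffMap iota).comp (embF σ) = tau Mh γ) {d : ℕ} [NeZero d] (hd : d ∣ M') :
    σ.1 (ConjFamily.jdF d (hd.trans hM)) = jS Kbar 1 (Mh * d) := by
  have h1 := embF_incl_of_tau hM σ hγ hσ (gen M' hd)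
  rw [embF_apply, coe_gen] at h1
  have h2 : toFullC Kbar Mh (inclFF hM (gen M' hd)) = ConjFamily.jdF d (hd.trans hM) := by
    apply Subtype.ext
    rw [coe_toFullC, coe_inclFF, coe_gen, ConjFamily.coe_jdF, jS_eq_qExpand,
      Fermat.Agent.Gateway.AuxLevel.jK_eq]
  rw [h2] at h1
  rw [h1]
  have h3 : (jK d : LaurentSeries Kbar) = qExpand Kbar d (jqModC Kbar) := by
    rw [Fermat.Agent.Gateway.AuxLevel.jK_eq]
  haveI : NeZero (Mh * d) := ⟨Nat.mul_ne_zero (NeZero.ne Mh) (NeZero.ne d)⟩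
  rw [h3, qExpand_qExpand, jS_eq_qExpand]

variable {k : Type} [Field k] [IsAlgClosed k] (ℓ : ℕ) [Fact ℓ.Prime] [CharP k ℓ]
  (A : ValuationSubring Kbar) (π : A →+* k) (hπ : Function.Surjective π) (hℓM : ¬ ℓ ∣ Mh)

include hM

/-- **(D4b)** the reduced embedding is standard on the elements of `Fk k Mh` coming from the lower
level `M'`, as soon as `σ` is standard on the generators `j(dz)`, `d ∣ M'`. -/
theorem redEmb_std_of_gen (σ : ConjFamily.Emb Kbar Mh)
    (hgen : ∀ (d : ℕ) [NeZero d] (hd : d ∣ M'),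
      σ.1 (ConjFamily.jdF d (hd.trans hM)) = jS Kbar 1 (Mh * d))
    (y : ConjFamily.Fk k Mh) (hy : (y : LaurentSeries k) ∈ ConjFamily.Fk k M') :
    (redEmb A π Mh ℓ hπ hℓM σ).1 y = qExpand k Mh (y : LaurentSeries k) := by
  set σb := redEmb A π Mh ℓ hπ hℓM σ with hσb
  -- the subfield of `Fk k M'` on which the claim holds
  have key : ∀ z : LaurentSeries k, z ∈ ConjFamily.Fk k M' →
      ∃ hz : z ∈ ConjFamily.Fk k Mh, σb.1 ⟨z, hz⟩ = qExpand k Mh z := by
    intro z hz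
    induction hz using IntermediateField.adjoin_induction with
    | mem x hx =>
      obtain ⟨d, hd0, hd, rfl⟩ := hx
      haveI := hd0
      have hd' : d ∣ Mh := hd.trans hM
      have hmem : qExpand k d (jqModC k) ∈ ConjFamily.Fk k Mh := jqModCd_mem_full k Mh hd'
      refine ⟨hmem, ?_⟩
      have e1 : (⟨qExpand k d (jqModC k), hmem⟩ : ConjFamily.Fk k Mh) =
          ConjFamily.jdF d hd' := by
        apply Subtype.ext
        rw [ConjFamily.coe_jdF, jS_eq_qExpand]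
      have e2 := redEmb_jdF ℓ hπ hℓM σ hd' (1 : Aˣ) (Mh * d)
        (by rw [map_one]; exact hgen d hd)
      rw [map_one] at e2
      haveI : NeZero (Mh * d) := ⟨Nat.mul_ne_zero (NeZero.ne Mh) (NeZero.ne d)⟩
      rw [e1, hσb, e2, qExpand_qExpand, jS_eq_qExpand]
    | algebraMap c =>
      have hmem : algebraMap k (LaurentSeries k) c ∈ ConjFamily.Fk k Mh :=
        IntermediateField.algebraMap_mem _ c
      refine ⟨hmem, ?_⟩
      have e1 : (⟨algebraMap k (LaurentSeries k) c, hmem⟩ : ConjFamily.Fk k Mh) =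
          algebraMap k (ConjFamily.Fk k Mh) c := rfl
      rw [e1, σb.2.1 c, algebraMap_laurentSeries_eq_single]
      exact (qExpand_C Mh c).symm
    | add a b _ _ ha hb =>
      obtain ⟨ha1, ha2⟩ := ha
      obtain ⟨hb1, hb2⟩ := hb
      refine ⟨add_mem ha1 hb1, ?_⟩
      have e1 : (⟨a + b, add_mem ha1 hb1⟩ : ConjFamily.Fk k Mh) = ⟨a, ha1⟩ + ⟨b, hb1⟩ := rfl
      rw [e1, map_add, ha2, hb2, map_add]
    | inv a _ ha =>
      obtain ⟨ha1, ha2⟩ := ha
      refine ⟨inv_mem ha1, ?_⟩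
      have e1 : (⟨a⁻¹, inv_mem ha1⟩ : ConjFamily.Fk k Mh) = (⟨a, ha1⟩ : ConjFamily.Fk k Mh)⁻¹ :=
        rfl
      rw [e1, map_inv₀, ha2, map_inv₀]
    | mul a b _ _ ha hb =>
      obtain ⟨ha1, ha2⟩ := ha
      obtain ⟨hb1, hb2⟩ := hb
      refine ⟨mul_mem ha1 hb1, ?_⟩
      have e1 : (⟨a * b, mul_mem ha1 hb1⟩ : ConjFamily.Fk k Mh) = ⟨a, ha1⟩ * ⟨b, hb1⟩ := rfl
      rw [e1, map_mul, ha2, hb2, map_mul]
  obtain ⟨hz, h⟩ := key (y : LaurentSeries k) hy
  exact h

/-- **(D4b)**, in the form used by the trace descent: `σ` over `tau Mh γ`, `γ ∈ Γ₀(M')`. -/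
theorem redEmb_std (σ : ConjFamily.Emb Kbar Mh) {γ : SL(2, ℤ)} (hγ : γ ∈ Gamma0 M')
    (hσ : (coeffMap iota).comp (embF σ) = tau Mh γ)
    (y : ConjFamily.Fk k Mh) (hy : (y : LaurentSeries k) ∈ ConjFamily.Fk k M') :
    (redEmb A π Mh ℓ hπ hℓM σ).1 y = qExpand k Mh (y : LaurentSeries k) :=
  redEmb_std_of_gen hM ℓ A π hπ hℓM σ
    (fun d _ hd => emb_jdF_of_tau hM σ hγ hσ hd) y hy

end Fermat.Agent.S40x.C2.Descent.SbarStd
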