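import Mathlib
import Fermat.Agent.S40x.C2.DlogReg

/-!
# P-S44 (block C2, route OMEGA), leaf DESC, piece (D5): `θ u / θ j ∈ Fk k N`

`k` algebraically closed of characteristic `p`, `(N : k) ≠ 0`.  For every `u ∈ Fk k N ⊆ k((q))`
the quotient `θ u / θ j` (`θ = q d/dq`, `j = jqModC k`) lies again in `Fk k N`
(`theta_div_mem_Fk`): `Fk k N / k(j)` is separable (`ConjFamily.isSeparable_Fk`), so by the
`p`-basis decomposition `u = ∑_{i<p} y_i^p j^i` (`PBasisVal.exists_pbasis`) and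
`D (y^p) = 0`: `D u = (∑ i y_i^p j^(i-1)) * D j` (`DlogReg.D_map_pbasis`).  No derivation on
`Fk k N` is used.

`dlog_eq_mul_theta_j` is the form consumed by `Descent.exists_cuspForm_of_descends`:
`dlog u = y₀ * θ j` with `y₀ ∈ Fk k N`.
-/

set_option autoImplicit false
set_option linter.unusedSectionVars false
set_option linter.style.haveILetI false

noncomputable section

namespace Fermat.Agent.S40x.C2.Descent.ThetaDiv

open Polynomial IntermediateField HahnSeries ModularCurve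
open Fermat.Agent.Lib.Residue Fermat.Agent.S28
open Fermat.Agent.Gateway.GoodRed Fermat.Agent.Gateway.GoodRed.ConjFamily
open Fermat.Agent.S40x.C2.PBasisVal Fermat.Agent.S40x.C2.DlogReg

variable {k : Type} [Field k] [IsAlgClosed k] {N : ℕ} [NeZero N]

/-- **`D u = y * D j` with `y ∈ Fk k N`**, element form. -/
theorem exists_D_eq_mul_D_j (p : ℕ) [hp : Fact p.Prime] [CharP k p] (hNk : ((N : ℕ) : k) ≠ 0) (u : Fk k N) :
    ∃ y : Fk k N, D (u : LaurentSeries k) = (y : LaurentSeries k) * D (jqModC k) := by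
  classical
  haveI : CharP (Fk k N) p := charP_of_injective_algebraMap (algebraMap k (Fk k N)).injective p
  haveI : Algebra.IsSeparable k⟮jFk k N⟯ (Fk k N) := isSeparable_Fk hNk
  obtain ⟨y, hy⟩ := exists_pbasis (k := k) p (jFk k N) u
  have hy0 : u = ∑ i ∈ Finset.range p, y i ^ p * (jFk k N - algebraMap k (Fk k N) 0) ^ i := by
    rw [map_zero, sub_zero]
    exact hy
  refine ⟨∑ i ∈ Finset.range p, (i : Fk k N) * y i ^ p *
    (jFk k N - algebraMap k (Fk k N) 0) ^ (i - 1), ?_⟩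
  have h := D_map_pbasis p (incl (k := k) (N := N)) incl_algebraMap (jFk k N) 0 y
  rw [← hy0] at h
  rw [incl_apply, incl_apply, incl_apply] at h
  rw [h]
  rfl

/-- **(D5)** `θ u = y * θ j` with `y ∈ Fk k N` (`θ = q d/dq`). -/
theorem theta_div_mem_Fk (p : ℕ) [hp : Fact p.Prime] [CharP k p] (hNk : ((N : ℕ) : k) ≠ 0) (u : LaurentSeries k) (hu : u ∈ Fk k N) :
    ∃ y ∈ Fk k N, HahnSeries.single (1 : ℤ) (1 : k) * D u =
      y * (HahnSeries.single (1 : ℤ) (1 : k) * D (jqModC k)) := by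
  obtain ⟨y, hy⟩ := exists_D_eq_mul_D_j p hNk (⟨u, hu⟩ : Fk k N)
  refine ⟨(y : LaurentSeries k), y.2, ?_⟩
  have hy' : D u = (y : LaurentSeries k) * D (jqModC k) := hy
  rw [hy']
  ring

/-- **`θ u / u = y₀ * θ j` with `y₀ ∈ Fk k N`**: the hypothesis `hred` of the descent lemma for the
logarithmic differential of `u ∈ Fk k N`, `u ≠ 0`. -/
theorem dlog_eq_mul_theta_j (p : ℕ) [hp : Fact p.Prime] [CharP k p] (hNk : ((N : ℕ) : k) ≠ 0) (u : LaurentSeries k) (hu : u ∈ Fk k N)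
    (hu0 : u ≠ 0) :
    ∃ y₀ ∈ Fk k N, HahnSeries.single (1 : ℤ) (1 : k) * D u / u =
      y₀ * (HahnSeries.single (1 : ℤ) (1 : k) * D (jqModC k)) := by
  obtain ⟨y, hy, h⟩ := theta_div_mem_Fk p hNk u hu
  refine ⟨y / u, div_mem hy hu, ?_⟩
  rw [h]
  field_simp

end Fermat.Agent.S40x.C2.Descent.ThetaDiv
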