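import Mathlib
import Fermat.Agent.Lib.Residue.Basic

/-!
# P-S44 (block C2, route OMEGA), leaf DESC, piece (D4a): transport of a differential identity

Purely algebraic.  `K` a field over `k`, `t j : K` related by `P(t) = j Q(t)` (`P Q : k[X]`,
`Q(t) ≠ 0`), and two ring homomorphisms `ι σ : K → k((z))` which are `C` on constants.  If
`ι h * D (ι t) = ι y * D (ι j)` (`h dt = y dj` read through `ι`) and `D (ι j) ≠ 0`, then the same
identity holds through `σ` (`transport`): the identity is equivalent to the algebraic relation
`h Q(t) = y (P'(t) - j Q'(t))` in `K` (`alg_rel`).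

Instance for the trace descent: `K = Fk k Mh`, `t = x₄`, `j = jFk`, `P = TLine4.JP`,
`Q = TLine4.JQ` (`TLine4.rel_inf`), `ι` the inclusion, `σ` a reduced cusp embedding.
-/

set_option autoImplicit false

namespace Fermat.Agent.S40x.C2.Descent.Transport

open Polynomial Fermat.Agent.Lib.Residue

variable {k : Type*} [Field k] {K : Type*} [Field K] [Algebra k K]

/-- chain rule for polynomial values under a ring hom into `k((z))` which is `C` on constants. -/
theorem D_map_aeval (σ : K →+* LaurentSeries k)
    (hσ : ∀ c : k, σ (algebraMap k K c) = HahnSeries.C c) (t : K) (P : k[X]) :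
    D (σ (aeval t P)) = σ (aeval t (derivative P)) * D (σ t) := by
  induction P using Polynomial.induction_on' with
  | add p q hp hq =>
    rw [map_add, map_add, derivative_add, map_add, map_add, D_add, hp, hq, add_mul]
  | monomial n a =>
    rw [aeval_monomial, map_mul, map_pow, hσ, derivative_monomial, aeval_monomial, map_mul,
      map_pow, map_mul (algebraMap k K), map_mul σ, map_natCast, map_natCast, hσ, D_mul, D_C,
      zero_mul, zero_add]
    cases n with
    | zero => simp [D_one]
    | succ n =>
      rw [D_pow, Nat.add_sub_cancel]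
      push_cast
      ring

/-- the relation between `D (τ t)` and `D (τ j)` obtained by differentiating `P(t) = j Q(t)`. -/
theorem rel_D (P Q : k[X]) (t j : K) (hrel : aeval t P = j * aeval t Q)
    (τ : K →+* LaurentSeries k) (hτ : ∀ c : k, τ (algebraMap k K c) = HahnSeries.C c) :
    τ (aeval t (derivative P) - j * aeval t (derivative Q)) * D (τ t) =
      D (τ j) * τ (aeval t Q) := by
  have h1 := congrArg (fun x => D (τ x)) hrel
  simp only [map_mul, D_mul] at h1
  rw [D_map_aeval τ hτ t P, D_map_aeval τ hτ t Q] at h1
  rw [map_sub, map_mul]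
  linear_combination h1

/-- **`h dt = y dj` through `ι` is the algebraic relation `h Q(t) = y (P'(t) - j Q'(t))`.** -/
theorem alg_rel (P Q : k[X]) (t j : K) (hrel : aeval t P = j * aeval t Q)
    (ι : K →+* LaurentSeries k) (hι : ∀ c : k, ι (algebraMap k K c) = HahnSeries.C c)
    (hDj : D (ι j) ≠ 0) (h y : K) (hy : ι h * D (ι t) = ι y * D (ι j)) :
    h * aeval t Q = y * (aeval t (derivative P) - j * aeval t (derivative Q)) := by
  apply ι.injective
  have h1 := rel_D P Q t j hrel ι hι
  rw [map_mul, map_mul]
  apply mul_right_cancel₀ hDj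
  linear_combination (ι (aeval t (derivative P) - j * aeval t (derivative Q))) * hy - (ι h) * h1

/-- **Transport of `h dt = y dj` from one embedding to another.** -/
theorem transport (P Q : k[X]) (t j : K) (hrel : aeval t P = j * aeval t Q)
    (hQ : aeval t Q ≠ 0)
    (ι σ : K →+* LaurentSeries k) (hι : ∀ c : k, ι (algebraMap k K c) = HahnSeries.C c)
    (hσ : ∀ c : k, σ (algebraMap k K c) = HahnSeries.C c)
    (hDj : D (ι j) ≠ 0) (h y : K) (hy : ι h * D (ι t) = ι y * D (ι j)) :
    σ h * D (σ t) = σ y * D (σ j) := by
  have halg := alg_rel P Q t j hrel ι hι hDj h y hy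
  set R : K := aeval t (derivative P) - j * aeval t (derivative Q) with hR
  -- `R ≠ 0`
  have hR0 : R ≠ 0 := by
    intro h0
    have h1 := rel_D P Q t j hrel ι hι
    rw [← hR, h0, map_zero, zero_mul] at h1
    have h2 : ι (aeval t Q) ≠ 0 := (map_ne_zero ι).mpr hQ
    exact mul_ne_zero hDj h2 h1.symm
  have hσR : σ R ≠ 0 := (map_ne_zero σ).mpr hR0
  have h1 := rel_D P Q t j hrel σ hσ
  rw [← hR] at h1
  have h2 := congrArg σ halg
  rw [map_mul, map_mul] at h2
  apply mul_left_cancel₀ hσR
  linear_combination (σ h) * h1 + (D (σ j)) * h2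

end Fermat.Agent.S40x.C2.Descent.Transport
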